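import Fermat.Agent.Dynkin.Types

/-!
# The forbidden chain

A chain closed at both ends by gadgets (two leaves, or a leaf on a multiple bond) is not of finite
type; this covers the affine diagrams of types B, C and D.
-/

set_option autoImplicit false

namespace FA.Dynkin

variable {ι : Type*} [Fintype ι]

/-- A weight on the neighbours of `e` absorbing the value two. -/
structure Gadget (C : Matrix ι ι ℤ) (e : ι) (g : ι → ℕ) : Prop where
  self : g e = 0
  leaf : ∀ z, g z ≠ 0 → (g z : ℤ) + C e z ≤ 0
  absorb : ∑ z, (g z : ℤ) * C z e ≤ -2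

variable [DecidableEq ι] {C : Matrix ι ι ℤ}

lemma gadget_pair {e a b : ι} (hab : a ≠ b) (hea : e ≠ a) (heb : e ≠ b) (ha : C e a ≤ -1)
    (ha' : C a e ≤ -1) (hb : C e b ≤ -1) (hb' : C b e ≤ -1) :
    Gadget C e (Pi.single a 1 + Pi.single b 1) where
  self := by simp [hea, heb]
  leaf z hz := by
    by_cases h1 : z = a
    · subst h1
      simp [hab]
      omega
    · by_cases h2 : z = b
      · subst h2
        simp [hab.symm]
        omega
      · simp [h1, h2] at hz
  absorb := by
    have h : ∀ z, (((Pi.single a 1 + Pi.single b 1 : ι → ℕ) z : ℕ) : ℤ) * C z e =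
        (if z = a then C a e else 0) + (if z = b then C b e else 0) := fun z => by
      by_cases h1 : z = a
      · subst h1; simp [hab]
      · by_cases h2 : z = b
        · subst h2; simp [hab.symm]
        · simp [h1, h2]
    rw [Finset.sum_congr rfl fun z _ => h z, Finset.sum_add_distrib]
    simp only [Finset.sum_ite_eq', Finset.mem_univ, if_true]
    omega

lemma gadget_single {e a : ι} (hea : e ≠ a) (u : ℕ) (h1 : (u : ℤ) + C e a ≤ 0)
    (h2 : (u : ℤ) * C a e ≤ -2) : Gadget C e (Pi.single a u) where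
  self := by simp [hea]
  leaf z hz := by
    by_cases h : z = a
    · subst h; simpa using h1
    · simp [h] at hz
  absorb := by
    rw [Finset.sum_eq_single a (fun z _ hz => by simp [hz]) (by simp)]
    simpa using h2

/-- A multiple bond gives a gadget. -/
lemma gadget_multiple {e a : ι} (hea : e ≠ a) (p q : ℕ) (hp : 1 ≤ p) (hq : 1 ≤ q)
    (hpq : ¬(p = 1 ∧ q = 1)) (ha : C a e = -(p : ℤ)) (he : C e a = -(q : ℤ)) :
    ∃ u, Gadget C e (Pi.single a u) := by
  rcases (by omega : 2 ≤ p ∨ (p = 1 ∧ 2 ≤ q)) with hp2 | ⟨rfl, hq2⟩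
  · exact ⟨1, gadget_single hea 1 (by rw [he]; omega) (by rw [ha]; omega)⟩
  · exact ⟨2, gadget_single hea 2 (by rw [he]; omega) (by rw [ha]; norm_num)⟩

/-- The forbidden chain. -/
theorem IsFiniteType.no_chain (hC : IsFiniteType C) (L : ℕ) (s : Fin (L + 1) → ι)
    (hs : Function.Injective s)
    (hedge : ∀ i j : Fin (L + 1), (i : ℕ) + 1 = j → C (s i) (s j) ≤ -1 ∧ C (s j) (s i) ≤ -1)
    (g₁ g₂ : ι → ℕ) (h₁ : Gadget C (s 0) g₁) (h₂ : Gadget C (s (Fin.last L)) g₂)
    (hd₁ : ∀ i, g₁ (s i) = 0) (hd₂ : ∀ i, g₂ (s i) = 0) (hd : ∀ z, g₁ z = 0 ∨ g₂ z = 0) :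
    False := by
  have hoff : ∀ (g : ι → ℕ) (j : ι), g j = 0 → ∑ z, (g z : ℤ) * C z j ≤ 0 := fun g j hg =>
    Finset.sum_nonpos fun z _ => by
      rcases eq_or_ne z j with rfl | hz
      · simp [hg]
      · exact mul_nonpos_of_nonneg_of_nonpos (Int.natCast_nonneg _) (hC.nonpos _ _ hz)
  have hleaf : ∀ (g : ι → ℕ) (j : ι), ∑ z, (g z : ℤ) * C z j ≤ 2 * g j := fun g j => by
    rw [← Finset.add_sum_erase _ _ (Finset.mem_univ j), hC.diag]
    have : ∑ z ∈ Finset.univ.erase j, (g z : ℤ) * C z j ≤ 0 := Finset.sum_nonpos fun z hz =>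
      mul_nonpos_of_nonneg_of_nonpos (Int.natCast_nonneg _)
        (hC.nonpos _ _ (Finset.mem_erase.1 hz).1)
    linarith
  let v : ι → ℕ := fun z => (∑ i, if s i = z then 2 else 0) + g₁ z + g₂ z
  have hv : ∀ j, ∑ z, (v z : ℤ) * C z j = 2 * ∑ i, C (s i) j + ∑ z, (g₁ z : ℤ) * C z j +
      ∑ z, (g₂ z : ℤ) * C z j := fun j => by
    simp only [v, Nat.cast_add, Nat.cast_sum, add_mul, Finset.sum_add_distrib, Finset.sum_mul]
    rw [Finset.sum_comm, Finset.mul_sum]
    simp
  obtain ⟨j, hj, hpos⟩ := hC.noNull v fun h0 => by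
    have h := congrFun h0 (s 0)
    simp only [v, Pi.zero_apply, Nat.add_eq_zero_iff, Finset.sum_eq_zero_iff] at h
    simpa using h.1.1 0 (Finset.mem_univ _)
  refine not_le.2 hpos ?_
  rw [hv j]
  by_cases hrange : ∃ i, s i = j
  · obtain ⟨i, rfl⟩ := hrange
    have hb1 : ∑ z, (g₁ z : ℤ) * C z (s i) ≤ if i = 0 then -2 else 0 := by
      split_ifs with h
      · subst h; exact h₁.absorb
      · exact hoff _ _ (hd₁ i)
    have hb2 : ∑ z, (g₂ z : ℤ) * C z (s i) ≤ if i = Fin.last L then -2 else 0 := by
      split_ifs with h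
      · subst h; exact h₂.absorb
      · exact hoff _ _ (hd₂ i)
    have hpath : ∑ l, C (s l) (s i) ≤ 2 + (if i = 0 then 0 else -1) +
        (if i = Fin.last L then 0 else -1) := by
      have hbound : ∀ l, C (s l) (s i) ≤ (if l = i then 2 else 0) +
          (if (l : ℕ) + 1 = i then -1 else 0) + (if (i : ℕ) + 1 = l then -1 else 0) := fun l => by
        rcases eq_or_ne l i with rfl | hli
        · simp [hC.diag]
        · have hn := hC.nonpos _ _ (hs.ne hli)
          simp only [hli, if_false]
          split_ifs with h1 h2 h2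
          · omega
          · have := (hedge l i h1).1; omega
          · have := (hedge i l h2).2; omega
          · simpa using hn
      refine le_trans (Finset.sum_le_sum fun l _ => hbound l) ?_
      rw [Finset.sum_add_distrib, Finset.sum_add_distrib, Finset.sum_ite_eq' _ i]
      simp only [Finset.mem_univ, if_true]
      refine add_le_add (add_le_add le_rfl ?_) ?_
      · split_ifs with h
        · exact Finset.sum_nonpos fun l _ => by split_ifs <;> simp
        · rw [Finset.sum_eq_single (⟨(i : ℕ) - 1, by omega⟩ : Fin (L + 1))]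
          · rw [if_pos]
            rw [Fin.ext_iff, Fin.val_zero] at h
            show (i : ℕ) - 1 + 1 = i
            omega
          · intro l _ hl
            rw [if_neg]
            rw [Fin.ext_iff, Fin.val_zero] at h
            have : (l : ℕ) ≠ (i : ℕ) - 1 := fun e => hl (Fin.ext e)
            omega
          · simp
      · split_ifs with h
        · exact Finset.sum_nonpos fun l _ => by split_ifs <;> simp
        · have hlt : (i : ℕ) + 1 < L + 1 := by simp [Fin.ext_iff] at h; omega
          rw [Finset.sum_eq_single (⟨(i : ℕ) + 1, hlt⟩ : Fin (L + 1))]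
          · rw [if_pos]; rfl
          · intro l _ hl
            rw [if_neg]
            simp [Fin.ext_iff] at hl
            omega
          · simp
    split_ifs at hb1 hb2 hpath <;> omega
  · push Not at hrange
    have hz : (∑ i, if s i = j then 2 else 0 : ℕ) = 0 :=
      Finset.sum_eq_zero fun i _ => by simp [hrange i]
    have hpath : ∀ e, ∑ l, C (s l) j ≤ C (s e) j := fun e => by
      rw [← Finset.add_sum_erase _ _ (Finset.mem_univ e)]
      have : ∑ l ∈ Finset.univ.erase e, C (s l) j ≤ 0 :=
        Finset.sum_nonpos fun l _ => hC.nonpos _ _ (hrange l)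
      linarith
    simp only [v, hz, zero_add] at hj
    rcases hd j with h | h
    · have h2 := h₂.leaf j (by omega)
      have h3 := hpath (Fin.last L)
      have h4 := hleaf g₂ j
      have h5 := hoff g₁ j h
      linarith
    · have h2 := h₁.leaf j (by omega)
      have h3 := hpath 0
      have h4 := hleaf g₁ j
      have h5 := hoff g₂ j h
      linarith

end FA.Dynkin
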