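import Fermat.Agent.Dynkin.Types

/-!
# Extensions of the exceptional types

Each extension is either exceptional again or carries an explicit null vector.
-/

set_option autoImplicit false

namespace FA.Dynkin

open DynkinType

lemma extMat_mono {m : ℕ} (T : Matrix (Fin m) (Fin m) ℤ) (k : ℕ) {p q p' q' : ℕ} (hp : p' ≤ p)
    (hq : q' ≤ q) (a b : Fin (m + 1)) : extMat T k p q a b ≤ extMat T k p' q' a b := by
  simp only [extMat, Matrix.of_apply]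
  split_ifs <;> omega

/-- A null vector for a weaker bond excludes the stronger one. -/
lemma no_ext {m : ℕ} {T : Matrix (Fin m) (Fin m) ℤ} {k p q : ℕ}
    (h : IsFiniteType (extMat T k p q)) (p' q' : ℕ) (hp : p' ≤ p) (hq : q' ≤ q)
    (v : Fin (m + 1) → ℕ) (a₀ : Fin (m + 1)) (ha₀ : v a₀ ≠ 0)
    (hM : ∀ a, v a ≠ 0 → ∑ b, (v b : ℤ) * extMat T k p' q' b a ≤ 0) : False :=
  h.noNull.no_witness id Function.injective_id _ v a₀ ha₀ (extMat_mono T k hp hq) hM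

/-- Extensions of E₆. -/
theorem extendE6 {k p q : ℕ} (hk : k < 6) (hp : 1 ≤ p) (hq : 1 ≤ q)
    (h : IsFiniteType (extMat CartanMatrix.E₆ k p q)) :
    ∃ t : DynkinType, t.Valid ∧ Matches t (extMat CartanMatrix.E₆ k p q) := by
  interval_cases k
  · rcases (by omega : (p = 1 ∧ q = 1) ∨ 2 ≤ q ∨ 2 ≤ p) with ⟨rfl, rfl⟩ | h2 | h2
    · refine ⟨.E7, trivial, ?_⟩
      show ∃ σ : Fin 7 ≃ Fin 7, ∀ a b,
        extMat CartanMatrix.E₆ 0 1 1 (σ a) (σ b) = CartanMatrix.E₇ a b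
      exact ⟨⟨![5, 1, 4, 3, 2, 0, 6], ![5, 1, 4, 3, 2, 0, 6], by decide, by decide⟩, by decide⟩
    · exact (no_ext h 1 2 hp h2 ![2, 1, 2, 2, 1, 0, 2] 0 (by decide) (by decide)).elim
    · exact (no_ext h 2 1 h2 hq ![2, 1, 2, 2, 1, 0, 1] 0 (by decide) (by decide)).elim
  · exact (no_ext h 1 1 hp hq ![1, 2, 2, 3, 2, 1, 1] 0 (by decide) (by decide)).elim
  · exact (no_ext h 1 1 hp hq ![1, 1, 2, 2, 1, 0, 1] 0 (by decide) (by decide)).elim
  · exact (no_ext h 1 1 hp hq ![0, 1, 1, 2, 1, 0, 1] 1 (by decide) (by decide)).elim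
  · exact (no_ext h 1 1 hp hq ![0, 1, 1, 2, 2, 1, 1] 1 (by decide) (by decide)).elim
  · rcases (by omega : (p = 1 ∧ q = 1) ∨ 2 ≤ q ∨ 2 ≤ p) with ⟨rfl, rfl⟩ | h2 | h2
    · refine ⟨.E7, trivial, ?_⟩
      show ∃ σ : Fin 7 ≃ Fin 7, ∀ a b,
        extMat CartanMatrix.E₆ 5 1 1 (σ a) (σ b) = CartanMatrix.E₇ a b
      exact ⟨Equiv.refl _, by decide⟩
    · exact (no_ext h 1 2 hp h2 ![0, 1, 1, 2, 2, 2, 2] 1 (by decide) (by decide)).elim
    · exact (no_ext h 2 1 h2 hq ![0, 1, 1, 2, 2, 2, 1] 1 (by decide) (by decide)).elim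

/-- Extensions of E₇. -/
theorem extendE7 {k p q : ℕ} (hk : k < 7) (hp : 1 ≤ p) (hq : 1 ≤ q)
    (h : IsFiniteType (extMat CartanMatrix.E₇ k p q)) :
    ∃ t : DynkinType, t.Valid ∧ Matches t (extMat CartanMatrix.E₇ k p q) := by
  interval_cases k
  · exact (no_ext h 1 1 hp hq ![2, 2, 3, 4, 3, 2, 1, 1] 0 (by decide) (by decide)).elim
  · exact (no_ext h 1 1 hp hq ![1, 2, 2, 3, 2, 1, 0, 1] 0 (by decide) (by decide)).elim
  · exact (no_ext h 1 1 hp hq ![1, 1, 2, 2, 1, 0, 0, 1] 0 (by decide) (by decide)).elim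
  · exact (no_ext h 1 1 hp hq ![0, 1, 1, 2, 1, 0, 0, 1] 1 (by decide) (by decide)).elim
  · exact (no_ext h 1 1 hp hq ![0, 1, 1, 2, 2, 1, 0, 1] 1 (by decide) (by decide)).elim
  · exact (no_ext h 1 1 hp hq ![0, 1, 1, 2, 2, 2, 1, 1] 1 (by decide) (by decide)).elim
  · rcases (by omega : (p = 1 ∧ q = 1) ∨ 2 ≤ q ∨ 2 ≤ p) with ⟨rfl, rfl⟩ | h2 | h2
    · refine ⟨.E8, trivial, ?_⟩
      show ∃ σ : Fin 8 ≃ Fin 8, ∀ a b,
        extMat CartanMatrix.E₇ 6 1 1 (σ a) (σ b) = CartanMatrix.E₈ a b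
      exact ⟨Equiv.refl _, by decide⟩
    · exact (no_ext h 1 2 hp h2 ![0, 1, 1, 2, 2, 2, 2, 2] 1 (by decide) (by decide)).elim
    · exact (no_ext h 2 1 h2 hq ![0, 1, 1, 2, 2, 2, 2, 1] 1 (by decide) (by decide)).elim

/-- E₈ has no extension. -/
theorem extendE8 {k p q : ℕ} (hk : k < 8) (hp : 1 ≤ p) (hq : 1 ≤ q)
    (h : IsFiniteType (extMat CartanMatrix.E₈ k p q)) : False := by
  interval_cases k
  · exact no_ext h 1 1 hp hq ![2, 2, 3, 4, 3, 2, 1, 0, 1] 0 (by decide) (by decide)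
  · exact no_ext h 1 1 hp hq ![1, 2, 2, 3, 2, 1, 0, 0, 1] 0 (by decide) (by decide)
  · exact no_ext h 1 1 hp hq ![1, 1, 2, 2, 1, 0, 0, 0, 1] 0 (by decide) (by decide)
  · exact no_ext h 1 1 hp hq ![0, 1, 1, 2, 1, 0, 0, 0, 1] 1 (by decide) (by decide)
  · exact no_ext h 1 1 hp hq ![0, 1, 1, 2, 2, 1, 0, 0, 1] 1 (by decide) (by decide)
  · exact no_ext h 1 1 hp hq ![0, 1, 1, 2, 2, 2, 1, 0, 1] 1 (by decide) (by decide)
  · exact no_ext h 1 1 hp hq ![0, 1, 1, 2, 2, 2, 2, 1, 1] 1 (by decide) (by decide)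
  · exact no_ext h 1 1 hp hq ![2, 3, 4, 6, 5, 4, 3, 2, 1] 0 (by decide) (by decide)

/-- F₄ has no extension. -/
theorem extendF4 {k p q : ℕ} (hk : k < 4) (hp : 1 ≤ p) (hq : 1 ≤ q)
    (h : IsFiniteType (extMat CartanMatrix.F₄ k p q)) : False := by
  interval_cases k
  · exact no_ext h 1 1 hp hq ![2, 3, 4, 2, 1] 0 (by decide) (by decide)
  · exact no_ext h 1 1 hp hq ![1, 2, 2, 0, 1] 0 (by decide) (by decide)
  · exact no_ext h 1 1 hp hq ![0, 1, 2, 1, 1] 1 (by decide) (by decide)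
  · exact no_ext h 1 1 hp hq ![1, 2, 3, 2, 1] 0 (by decide) (by decide)

/-- G₂ has no extension. -/
theorem extendG2 {k p q : ℕ} (hk : k < 2) (hp : 1 ≤ p) (hq : 1 ≤ q)
    (h : IsFiniteType (extMat CartanMatrix.G₂ k p q)) : False := by
  interval_cases k
  · exact no_ext h 1 1 hp hq ![2, 3, 1] 0 (by decide) (by decide)
  · exact no_ext h 1 1 hp hq ![1, 2, 1] 0 (by decide) (by decide)

end FA.Dynkin
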