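import Fermat.Agent.Dynkin.ExtendBCD
import Fermat.Agent.Dynkin.ExtendExc
import Mathlib.LinearAlgebra.RootSystem.CartanMatrix

/-!
# Connected diagrams of finite type, and irreducible root systems

A connected matrix of finite type is one of the types A–G: its diagram is a tree, so it is an
extension of a smaller one by a leaf. The Cartan matrix of an irreducible root system is such a
matrix.
-/

set_option autoImplicit false

namespace FA.Dynkin

open DynkinType

/-- A one-vertex extension of a type which is of finite type is again a type. -/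
theorem DynkinType.extend (t : DynkinType) (ht : t.Valid) (k : Fin t.rank) {p q : ℕ} (hp : 1 ≤ p)
    (hq : 1 ≤ q) (h : IsFiniteType (extMat t.matrix k p q)) :
    ∃ t' : DynkinType, t'.Valid ∧ Matches t' (extMat t.matrix k p q) := by
  cases t with
  | A n => exact extendA k.isLt hp hq h
  | B n => exact extendB ht k.isLt hp hq h
  | C n => exact extendC ht k.isLt hp hq h
  | D n => exact extendD ht k.isLt hp hq h
  | E6 => exact extendE6 k.isLt hp hq h
  | E7 => exact extendE7 k.isLt hp hq h
  | E8 => exact (extendE8 k.isLt hp hq h).elim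
  | F4 => exact (extendF4 k.isLt hp hq h).elim
  | G2 => exact (extendG2 k.isLt hp hq h).elim

/-- A connected matrix of finite type is one of the types A–G. -/
theorem exists_type_of_connected {ι : Type*} [Fintype ι] (C : Matrix ι ι ℤ) (h : IsFiniteType C)
    (hconn : (graph C).Connected) : ∃ t : DynkinType, t.Valid ∧ Matches t C := by
  suffices key : ∀ (n : ℕ) (ι : Type _) [Fintype ι] (C : Matrix ι ι ℤ), Fintype.card ι = n + 1 →
      IsFiniteType C → (graph C).Connected → ∃ t : DynkinType, t.Valid ∧ Matches t C by
    have := hconn.nonempty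
    exact key (Fintype.card ι - 1) ι C (by have := Fintype.card_pos (α := ι); omega) h hconn
  intro n
  induction n with
  | zero =>
    intro ι _ C hcard h _
    refine ⟨.A 1, le_refl 1, (Fintype.equivFinOfCardEq hcard).symm, fun a b => ?_⟩
    obtain rfl : a = b := Fin.ext (by have := a.isLt; have := b.isLt; simp only [rank] at *; omega)
    rw [h.diag]
    show 2 = CartanMatrix.A 1 a a
    simp [CartanMatrix.A]
  | succ n ih =>
    intro ι _ C hcard h hconn
    classical
    have : Nontrivial ι := Fintype.one_lt_card_iff_nontrivial.1 (by omega)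
    have htree : (graph C).IsTree := ⟨hconn, h.isAcyclic⟩
    obtain ⟨v, hv⟩ := htree.exists_vert_degree_one_of_nontrivial
    obtain ⟨w, hvw, huniq⟩ := SimpleGraph.degree_eq_one_iff_existsUnique_adj.1 hv
    let κ := {b : ι // b ≠ v}
    let C' : Matrix κ κ ℤ := C.submatrix Subtype.val Subtype.val
    have hC' : IsFiniteType C' := h.submatrix _ Subtype.val_injective
    have hconn' : (graph C').Connected := by
      have h1 := hconn.induce_compl_singleton_of_degree_eq_one hv
      have hg : graph C' = (graph C).induce {v}ᶜ := by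
        ext a b
        rw [graph, graph, SimpleGraph.induce_adj, SimpleGraph.fromRel_adj, SimpleGraph.fromRel_adj,
          ne_eq, ne_eq, Subtype.ext_iff]
        rfl
      exact hg ▸ h1
    obtain ⟨t, ht, σ, hσ⟩ := ih κ C' (by simp [κ]; omega) hC' hconn'
    have hvw' := h.graph_adj.1 hvw
    have hwv : C w v ≠ 0 := fun h0 => hvw'.2 (h.zero_comm _ _ h0)
    let k : Fin t.rank := σ.symm ⟨w, hvw'.1.symm⟩
    have hk : (σ k : ι) = w := by simp [k]
    obtain ⟨p, hp⟩ : ∃ p : ℕ, C v w = -(p : ℤ) :=
      ⟨(-C v w).toNat, by have := h.nonpos v w hvw'.1; omega⟩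
    obtain ⟨q, hq⟩ : ∃ q : ℕ, C w v = -(q : ℤ) :=
      ⟨(-C w v).toNat, by have := h.nonpos w v hvw'.1.symm; omega⟩
    have hp1 : 1 ≤ p := Nat.one_le_iff_ne_zero.2 fun h0 => hvw'.2 (by simp [hp, h0])
    have hq1 : 1 ≤ q := Nat.one_le_iff_ne_zero.2 fun h0 => hwv (by simp [hq, h0])
    let e : Fin (t.rank + 1) ≃ ι :=
      finSuccEquivLast.trans ((Equiv.optionCongr σ).trans (Equiv.optionSubtypeNe v))
    have he1 : e (Fin.last t.rank) = v := by simp [e]; rfl
    have he2 : ∀ i : Fin t.rank, e i.castSucc = (σ i : ι) := fun i => by simp [e]; rfl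
    have hother : ∀ u : κ, (u : ι) ≠ w → C v u = 0 ∧ C u v = 0 := fun u hu => by
      have h0 : C v u = 0 := by
        by_contra h0
        exact hu (huniq _ (h.graph_adj.2 ⟨u.2.symm, h0⟩))
      exact ⟨h0, h.zero_comm _ _ h0⟩
    have hiff : ∀ i : Fin t.rank, (i : ℕ) = k ↔ (σ i : ι) = w := fun i => by
      rw [← Fin.ext_iff, ← hk, ← Subtype.ext_iff, σ.injective.eq_iff]
    have hent : ∀ a b, C (e a) (e b) = extMat t.matrix k p q a b := by
      intro a b
      induction a using Fin.lastCases with
      | last =>
        induction b using Fin.lastCases with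
        | last => rw [he1, h.diag, extMat_new]
        | cast j =>
          rw [he1, he2, extMat_new_old]
          split_ifs with hj
          · rw [(hiff j).1 hj, hp]
          · exact (hother _ fun h0 => hj ((hiff j).2 h0)).1
      | cast i =>
        induction b using Fin.lastCases with
        | last =>
          rw [he1, he2, extMat_old_new]
          split_ifs with hi
          · rw [(hiff i).1 hi, hq]
          · exact (hother _ fun h0 => hi ((hiff i).2 h0)).2
        | cast j => rw [he2, he2, extMat_old]; exact hσ i j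
    have hext : IsFiniteType (extMat t.matrix k p q) := by
      have := h.submatrix e e.injective
      convert this using 1
      ext a b
      exact (hent a b).symm
    obtain ⟨t', ht', hm⟩ := t.extend ht k hp1 hq1 hext
    exact ⟨t', ht', hm.of_equiv e hent⟩

/-- The Cartan matrix of a root system is a symmetrisable positive definite generalised Cartan
matrix. -/
theorem isFiniteType_cartanMatrix {ι R M N : Type*} [Finite ι] [Field R] [CharZero R]
    [AddCommGroup M] [Module R M] [AddCommGroup N] [Module R N] {P : RootPairing ι R M N}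
    [P.IsCrystallographic] [P.IsRootSystem] (b : P.Base) [Fintype b.support] :
    IsFiniteType b.cartanMatrix := by
  classical
  have hgcm : IsGCM b.cartanMatrix :=
    ⟨b.cartanMatrix_apply_same, fun i j h => b.cartanMatrix_le_zero_of_ne i j h,
      fun i j h => b.cartanMatrix_apply_eq_zero_iff_symm.1 h⟩
  obtain ⟨d, hd, hpd⟩ := b.exists_cartanMatrix_mul_diagaonal_posDef
  refine isFiniteType_of_pos hgcm d hd (fun i j => ?_) fun x hx => ?_
  · have h1 := congrFun (congrFun hpd.isHermitian i) j
    simpa [Matrix.mul_apply, Matrix.diagonal_apply] using h1.symm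
  · obtain ⟨z, hz, D, hD, rfl⟩ : ∃ z : b.support → ℤ, z ≠ 0 ∧ ∃ D : ℚ, 0 < D ∧
        x = fun i => (z i : ℚ) / D := by
      refine ⟨fun i => (x i).num * ∏ j ∈ Finset.univ.erase i, ((x j).den : ℤ), ?_,
        ∏ j, ((x j).den : ℚ), Finset.prod_pos fun j _ => by exact_mod_cast (x j).den_pos, ?_⟩
      · obtain ⟨i, hi⟩ := Function.ne_iff.1 hx
        refine Function.ne_iff.2 ⟨i, mul_ne_zero (by simpa using hi) ?_⟩
        exact Finset.prod_ne_zero_iff.2 fun j _ => by exact_mod_cast (x j).den_nz
      · funext i
        have hne : (∏ j ∈ Finset.univ.erase i, ((x j).den : ℚ)) ≠ 0 :=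
          Finset.prod_ne_zero_iff.2 fun j _ => by exact_mod_cast (x j).den_nz
        rw [← Finset.mul_prod_erase _ (fun j => ((x j).den : ℚ)) (Finset.mem_univ i)]
        push_cast
        rw [mul_div_mul_right _ _ hne, Rat.num_div_den]
    have h1 := hpd.dotProduct_mulVec_pos hz
    have h2 : 0 < ∑ i, ∑ j, z i * (b.cartanMatrix i j * d j) * z j := by
      simpa [dotProduct, Matrix.mulVec, Matrix.mul_apply, Matrix.diagonal_apply, Finset.mul_sum,
        mul_assoc] using h1
    have h3 : (0 : ℚ) < ∑ i, ∑ j, (z i : ℚ) * ((b.cartanMatrix i j : ℚ) * d j) * z j := by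
      exact_mod_cast h2
    refine lt_of_lt_of_eq (div_pos h3 (mul_pos hD hD)) ?_
    simp only [Finset.sum_div]
    refine Finset.sum_congr rfl fun i _ => Finset.sum_congr rfl fun j _ => ?_
    field_simp

/-- The Dynkin diagram of an irreducible root system is connected. -/
theorem connected_cartanMatrix {ι R M N : Type*} [Finite ι] [Field R] [CharZero R]
    [AddCommGroup M] [Module R M] [AddCommGroup N] [Module R N] {P : RootPairing ι R M N}
    [P.IsCrystallographic] [P.IsRootSystem] [P.IsReduced] [P.IsIrreducible] (b : P.Base)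
    [Nonempty b.support] : (graph b.cartanMatrix).Connected := by
  refine (SimpleGraph.connected_iff _).2 ⟨fun i j => ?_, inferInstance⟩
  refine b.induction_on_cartanMatrix (fun l => (graph b.cartanMatrix).Reachable i l) (i := i)
    (j := j) (SimpleGraph.Reachable.refl i) fun l m hl hne => ?_
  rcases eq_or_ne l m with rfl | hlm
  · exact hl
  · refine hl.trans (SimpleGraph.Adj.reachable ?_)
    rw [graph, SimpleGraph.fromRel_adj]
    exact ⟨hlm, Or.inr hne⟩

end FA.Dynkin
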