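import Fermat.Agent.Dynkin.Types

/-!
# The types are pairwise distinct

A few local properties of the diagram, together with the rank, determine the type.
-/

set_option autoImplicit false
set_option linter.unnecessarySeqFocus false

namespace FA.Dynkin

open DynkinType

variable {ι κ : Type*}

/-- An entry equals `-n`. -/
abbrev HasEntry (C : Matrix ι ι ℤ) (n : ℕ) : Prop := ∃ i j, C i j = -(n : ℤ)

/-- At most one neighbour. -/
def IsLeaf (C : Matrix ι ι ℤ) (j : ι) : Prop :=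
  ∀ x y, (x ≠ j ∧ C x j ≠ 0) ∧ (y ≠ j ∧ C y j ≠ 0) → x = y

instance {m : ℕ} (C : Matrix (Fin m) (Fin m) ℤ) (j : Fin m) : Decidable (IsLeaf C j) := by
  unfold IsLeaf
  infer_instance

/-- A double bond with a leaf at the second index. -/
abbrev TwoLeafRight (C : Matrix ι ι ℤ) : Prop := ∃ i j, C i j = -2 ∧ IsLeaf C j

/-- A double bond with a leaf at the first index. -/
abbrev TwoLeafLeft (C : Matrix ι ι ℤ) : Prop := ∃ i j, C i j = -2 ∧ IsLeaf C i

/-- A vertex with three neighbours. -/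
abbrev HasBranch (C : Matrix ι ι ℤ) : Prop :=
  ∃ c x, x ≠ c ∧ C c x ≠ 0 ∧ ∃ y, y ≠ c ∧ y ≠ x ∧ C c y ≠ 0 ∧
    ∃ z, z ≠ c ∧ z ≠ x ∧ z ≠ y ∧ C c z ≠ 0

/-- Two leaves with a common neighbour. -/
abbrev HasLeafPair (C : Matrix ι ι ℤ) : Prop :=
  ∃ c a, a ≠ c ∧ C c a ≠ 0 ∧ ∃ b, b ≠ c ∧ b ≠ a ∧ C c b ≠ 0 ∧ IsLeaf C a ∧ IsLeaf C b

open scoped Classical in
/-- The shape of a diagram. -/
noncomputable def shape (C : Matrix ι ι ℤ) : ℕ :=
  if HasEntry C 3 then 6
  else if HasEntry C 2 then if TwoLeafRight C then 1 else if TwoLeafLeft C then 2 else 5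
  else if HasBranch C then if HasLeafPair C then 3 else 4
  else 0

lemma shape_reindex {C : Matrix ι ι ℤ} {C' : Matrix κ κ ℤ} (e : κ ≃ ι)
    (he : ∀ a b, C (e a) (e b) = C' a b) : shape C' = shape C := by
  have h0 : ∀ n, HasEntry C' n ↔ HasEntry C n := fun n => by
    simp only [HasEntry, e.surjective.exists, he]
  have h1 : ∀ a, IsLeaf C (e a) ↔ IsLeaf C' a := fun a => by
    simp only [IsLeaf, e.surjective.forall, he, ne_eq, e.injective.eq_iff]
  have h2 : TwoLeafRight C' ↔ TwoLeafRight C := by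
    simp only [TwoLeafRight, e.surjective.exists, he, h1]
  have h3 : TwoLeafLeft C' ↔ TwoLeafLeft C := by
    simp only [TwoLeafLeft, e.surjective.exists, he, h1]
  have h4 : HasBranch C' ↔ HasBranch C := by
    simp only [HasBranch, e.surjective.exists, he, ne_eq, e.injective.eq_iff]
  have h5 : HasLeafPair C' ↔ HasLeafPair C := by
    simp only [HasLeafPair, e.surjective.exists, he, h1, ne_eq, e.injective.eq_iff]
  classical
  rw [shape, shape, if_congr (h0 3) rfl (if_congr (h0 2) (if_congr h2 rfl (if_congr h3 rfl rfl))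
    (if_congr h4 (if_congr h5 rfl rfl) rfl))]

/-- The shape of a type. -/
def DynkinType.shapeNo : DynkinType → ℕ
  | .A _ => 0
  | .B _ => 1
  | .C _ => 2
  | .D _ => 3
  | .E6 => 4
  | .E7 => 4
  | .E8 => 4
  | .F4 => 5
  | .G2 => 6

lemma shape_A (n : ℕ) : shape (CartanMatrix.A n) = 0 := by
  rw [shape, if_neg, if_neg, if_neg]
  · rintro ⟨c, x, hx, h1, y, hy, hyx, h2, z, hz, hzx, hzy, h3⟩
    simp [CartanMatrix.A, Fin.ext_iff] at hx h1 hy hyx h2 hz hzx hzy h3
    omega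
  all_goals
    rintro ⟨i, j, hij⟩
    simp [CartanMatrix.A] at hij
    split_ifs at hij <;> omega

lemma shape_B {n : ℕ} (hn : 2 ≤ n) : shape (CartanMatrix.B n) = 1 := by
  have h2 : CartanMatrix.B n ⟨n - 2, by omega⟩ ⟨n - 1, by omega⟩ = -2 := by
    simp [CartanMatrix.B, Fin.ext_iff]
    split_ifs <;> omega
  rw [shape, if_neg, if_pos, if_pos]
  · refine ⟨_, _, h2, fun x y ⟨⟨hx, h1⟩, hy, h3⟩ => ?_⟩
    simp [CartanMatrix.B, Fin.ext_iff] at hx hy h1 h3 ⊢
    omega
  · exact ⟨_, _, h2⟩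
  · rintro ⟨i, j, hij⟩
    simp [CartanMatrix.B] at hij
    split_ifs at hij <;> omega

lemma shape_C {n : ℕ} (hn : 3 ≤ n) : shape (CartanMatrix.C n) = 2 := by
  have h2 : CartanMatrix.C n ⟨n - 1, by omega⟩ ⟨n - 2, by omega⟩ = -2 := by
    simp [CartanMatrix.C, Fin.ext_iff]
    split_ifs <;> omega
  rw [shape, if_neg, if_pos, if_neg, if_pos]
  · refine ⟨_, _, h2, fun x y ⟨⟨hx, h1⟩, hy, h3⟩ => ?_⟩
    simp [CartanMatrix.C, Fin.ext_iff] at hx hy h1 h3 ⊢
    omega
  · rintro ⟨i, j, hij, hleaf⟩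
    have hij' : (i : ℕ) = n - 1 ∧ (j : ℕ) + 2 = n := by
      simp [CartanMatrix.C, Fin.ext_iff] at hij
      split_ifs at hij <;> omega
    have h := hleaf i ⟨n - 3, by omega⟩ ⟨⟨by simp [Fin.ext_iff]; omega, by rw [hij]; norm_num⟩,
      by simp [Fin.ext_iff]; omega, by simp [CartanMatrix.C, Fin.ext_iff]; omega⟩
    simp [Fin.ext_iff] at h
    omega
  · exact ⟨_, _, h2⟩
  · rintro ⟨i, j, hij⟩
    simp [CartanMatrix.C] at hij
    split_ifs at hij <;> omega

lemma shape_D {n : ℕ} (hn : 4 ≤ n) : shape (CartanMatrix.D n) = 3 := by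
  rw [shape, if_neg, if_neg, if_pos, if_pos]
  · refine ⟨⟨n - 3, by omega⟩, ⟨n - 2, by omega⟩, ?_, ?_, ⟨n - 1, by omega⟩, ?_, ?_, ?_,
      fun x y ⟨⟨hx, h1⟩, hy, h3⟩ => ?_, fun x y ⟨⟨hx, h1⟩, hy, h3⟩ => ?_⟩
    rotate_left 5
    · simp [CartanMatrix.D, Fin.ext_iff] at hx hy h1 h3 ⊢; omega
    · simp [CartanMatrix.D, Fin.ext_iff] at hx hy h1 h3 ⊢; omega
    all_goals simp [CartanMatrix.D, Fin.ext_iff] <;> omega
  · refine ⟨⟨n - 3, by omega⟩, ⟨n - 4, by omega⟩, ?_, ?_, ⟨n - 2, by omega⟩, ?_, ?_, ?_,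
      ⟨n - 1, by omega⟩, ?_, ?_, ?_, ?_⟩ <;>
      simp [CartanMatrix.D, Fin.ext_iff] <;> omega
  all_goals
    rintro ⟨i, j, hij⟩
    simp [CartanMatrix.D] at hij
    split_ifs at hij <;> omega

lemma shape_matrix {t : DynkinType} (ht : t.Valid) : shape t.matrix = t.shapeNo := by
  cases t with
  | A n => exact shape_A n
  | B n => exact shape_B ht
  | C n => exact shape_C ht
  | D n => exact shape_D ht
  | E6 =>
    show shape CartanMatrix.E₆ = 4
    rw [shape, if_neg, if_neg, if_pos, if_neg] <;> decide +kernel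
  | E7 =>
    show shape CartanMatrix.E₇ = 4
    rw [shape, if_neg, if_neg, if_pos, if_neg] <;> decide +kernel
  | E8 =>
    show shape CartanMatrix.E₈ = 4
    rw [shape, if_neg, if_neg, if_pos, if_neg] <;> decide +kernel
  | F4 =>
    show shape CartanMatrix.F₄ = 5
    rw [shape, if_neg, if_pos, if_neg, if_neg] <;> decide +kernel
  | G2 =>
    show shape CartanMatrix.G₂ = 6
    rw [shape, if_pos]
    decide +kernel

/-- A matrix matches at most one type of the list. -/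
theorem Matches.unique {t t' : DynkinType} {C : Matrix ι ι ℤ} (ht : t.Valid) (ht' : t'.Valid)
    (h : Matches t C) (h' : Matches t' C) : t = t' := by
  obtain ⟨σ, hσ⟩ := h
  obtain ⟨σ', hσ'⟩ := h'
  have hr : t.rank = t'.rank := by
    simpa using Fintype.card_congr (σ.trans σ'.symm)
  have hs : t.shapeNo = t'.shapeNo := by
    rw [← shape_matrix ht, ← shape_matrix ht', shape_reindex σ hσ, shape_reindex σ' hσ']
  cases t <;> cases t' <;> simp_all [DynkinType.shapeNo, DynkinType.rank, DynkinType.Valid] <;> omega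

end FA.Dynkin
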