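import Fermat.Agent.Dynkin.Types

/-!
# Extensions of type A
-/

set_option autoImplicit false

namespace FA.Dynkin

open DynkinType

lemma mul_pq_le_three {m : ℕ} {T : Matrix (Fin m) (Fin m) ℤ} {k p q : ℕ} (hk : k < m)
    (h : IsFiniteType (extMat T k p q)) : p * q ≤ 3 := by
  have h3 := h.mul_le_three (i := Fin.last m) (j := (⟨k, by omega⟩ : Fin (m + 1)))
    (by simp [Fin.ext_iff]; omega)
  simp [extMat, hk] at h3
  exact_mod_cast h3

/-- The possibilities for the bond to a new vertex. -/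
lemma bond_cases {m : ℕ} {T : Matrix (Fin m) (Fin m) ℤ} {k p q : ℕ} (hk : k < m) (hp : 1 ≤ p)
    (hq : 1 ≤ q) (h : IsFiniteType (extMat T k p q)) :
    (p = 1 ∧ q = 1) ∨ (p = 1 ∧ q = 2) ∨ (p = 2 ∧ q = 1) ∨ (p = 1 ∧ q = 3) ∨ (p = 3 ∧ q = 1) := by
  have h3 := mul_pq_le_three hk h
  have hp3 : p ≤ 3 := le_trans (Nat.le_mul_of_pos_right p hq) h3
  have hq3 : q ≤ 3 := le_trans (Nat.le_mul_of_pos_left q hp) h3
  interval_cases p <;> interval_cases q <;> omega

lemma isGCM_of {m : ℕ} {C : Matrix (Fin m) (Fin m) ℤ} (h : IsFiniteType C) : IsGCM C := h.toIsGCM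

section A

variable {m k p q : ℕ}

lemma extA_rev (hk : k < m) :
    ∃ τ : Fin (m + 1) ≃ Fin (m + 1), ∀ a b,
      extMat (CartanMatrix.A m) (m - 1 - k) p q (τ a) (τ b) =
        extMat (CartanMatrix.A m) k p q a b := by
  obtain ⟨τ, hτ⟩ := extMat_reindex (CartanMatrix.A m) (CartanMatrix.A m) Fin.revPerm
    (fun a b => by
      simp [CartanMatrix.A, Fin.ext_iff]
      split_ifs <;> omega)
    (⟨m - 1 - k, by omega⟩ : Fin m) ⟨k, hk⟩
    (by simp [Fin.ext_iff]; omega) p q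
  exact ⟨τ, hτ⟩

/-- A new vertex at the end of a chain. -/
theorem extendA_end (hm : 1 ≤ m) (hp : 1 ≤ p) (hq : 1 ≤ q)
    (h : IsFiniteType (extMat (CartanMatrix.A m) (m - 1) p q)) :
    ∃ t : DynkinType, t.Valid ∧ Matches t (extMat (CartanMatrix.A m) (m - 1) p q) := by
  rcases bond_cases (by omega) hp hq h with ⟨rfl, rfl⟩ | ⟨rfl, rfl⟩ | ⟨rfl, rfl⟩ | ⟨rfl, rfl⟩ |
    ⟨rfl, rfl⟩
  · refine ⟨.A (m + 1), by simp only [Valid]; omega, Equiv.refl _, ?_⟩
    show ∀ a b : Fin (m + 1),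
      extMat (CartanMatrix.A m) (m - 1) 1 1 a b = CartanMatrix.A (m + 1) a b
    intro a b
    simp [extMat, CartanMatrix.A, Fin.ext_iff]
    split_ifs <;> omega
  · refine ⟨.B (m + 1), by simp only [Valid]; omega, Equiv.refl _, ?_⟩
    show ∀ a b : Fin (m + 1),
      extMat (CartanMatrix.A m) (m - 1) 1 2 a b = CartanMatrix.B (m + 1) a b
    intro a b
    simp [extMat, CartanMatrix.A, CartanMatrix.B, Fin.ext_iff]
    split_ifs <;> omega
  · rcases eq_or_ne m 1 with rfl | h1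
    · refine ⟨.B 2, le_refl 2, ?_⟩
      show ∃ σ : Fin 2 ≃ Fin 2, ∀ a b,
        extMat (CartanMatrix.A 1) 0 2 1 (σ a) (σ b) = CartanMatrix.B 2 a b
      exact ⟨Equiv.swap 0 1, by decide⟩
    refine ⟨.C (m + 1), by simp only [Valid]; omega, Equiv.refl _, ?_⟩
    show ∀ a b : Fin (m + 1),
      extMat (CartanMatrix.A m) (m - 1) 2 1 a b = CartanMatrix.C (m + 1) a b
    intro a b
    simp [extMat, CartanMatrix.A, CartanMatrix.C, Fin.ext_iff]
    split_ifs <;> omega
  · rcases eq_or_ne m 1 with rfl | h1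
    · refine ⟨.G2, trivial, ?_⟩
      show ∃ σ : Fin 2 ≃ Fin 2, ∀ a b,
        extMat (CartanMatrix.A 1) 0 1 3 (σ a) (σ b) = CartanMatrix.G₂ a b
      exact ⟨Equiv.refl _, by decide⟩
    exfalso
    refine h.noNull.no_witness ![(⟨m - 2, by omega⟩ : Fin (m + 1)), ⟨m - 1, by omega⟩,
      ⟨m, by omega⟩] ?_ !![2, -1, 0; -1, 2, -3; 0, -1, 2] ![1, 2, 3] 0 (by decide) ?_ (by decide)
    · intro a b
      fin_cases a <;> fin_cases b <;> simp <;> omega
    · intro a b
      fin_cases a <;> fin_cases b <;> simp [extMat, CartanMatrix.A, show m - 2 < m by omega,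
        show m - 1 < m by omega] <;>
        split_ifs <;> omega
  · rcases eq_or_ne m 1 with rfl | h1
    · refine ⟨.G2, trivial, ?_⟩
      show ∃ σ : Fin 2 ≃ Fin 2, ∀ a b,
        extMat (CartanMatrix.A 1) 0 3 1 (σ a) (σ b) = CartanMatrix.G₂ a b
      exact ⟨Equiv.swap 0 1, by decide⟩
    exfalso
    refine h.noNull_transpose.no_witness ![(⟨m - 2, by omega⟩ : Fin (m + 1)), ⟨m - 1, by omega⟩,
      ⟨m, by omega⟩] ?_ !![2, -1, 0; -1, 2, -3; 0, -1, 2] ![1, 2, 3] 0 (by decide) ?_ (by decide)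
    · intro a b
      fin_cases a <;> fin_cases b <;> simp <;> omega
    · intro a b
      fin_cases a <;> fin_cases b <;> simp [extMat, CartanMatrix.A, show m - 2 < m by omega,
        show m - 1 < m by omega] <;>
        split_ifs <;> omega

/-- A new vertex at an interior point of a chain, nearer to the last end. -/
theorem extendA_interior (hk1 : 1 ≤ k) (hk : k + 2 ≤ m) (hside : m ≤ 2 * k + 1) (hp : 1 ≤ p)
    (hq : 1 ≤ q) (h : IsFiniteType (extMat (CartanMatrix.A m) k p q)) :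
    ∃ t : DynkinType, t.Valid ∧ Matches t (extMat (CartanMatrix.A m) k p q) := by
  by_cases hpq : p = 1 ∧ q = 1
  swap
  · exfalso
    refine h.noNull.no_witness ![(⟨k - 1, by omega⟩ : Fin (m + 1)), ⟨k, by omega⟩,
      ⟨k + 1, by omega⟩, ⟨m, by omega⟩] ?_
      !![2, -1, 0, 0; -1, 2, -1, -(q : ℤ); 0, -1, 2, 0; 0, -(p : ℤ), 0, 2]
      ![1, 2, 1, if 2 ≤ p then 1 else 2] 0 (by simp) ?_ ?_
    · intro a b
      fin_cases a <;> fin_cases b <;> simp <;> omega
    · intro a b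
      fin_cases a <;> fin_cases b <;> simp [extMat, CartanMatrix.A, show k - 1 < m by omega,
        show k < m by omega, show k + 1 < m by omega] <;> split_ifs <;> omega
    · intro a _
      fin_cases a <;> simp [Fin.sum_univ_four] <;> split_ifs <;> omega
  obtain ⟨rfl, rfl⟩ := hpq
  rcases (by omega : k + 2 = m ∨ k + 3 = m ∨ k + 4 ≤ m) with h2 | h3 | h4
  · refine ⟨.D (m + 1), by simp only [Valid]; omega, Equiv.refl _, ?_⟩
    show ∀ a b : Fin (m + 1),
      extMat (CartanMatrix.A m) k 1 1 a b = CartanMatrix.D (m + 1) a b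
    intro a b
    simp [extMat, CartanMatrix.A, CartanMatrix.D, Fin.ext_iff]
    split_ifs <;> omega
  · rcases (by omega : m = 5 ∨ m = 6 ∨ m = 7 ∨ 8 ≤ m) with rfl | rfl | rfl | h8
    · obtain rfl : k = 2 := by omega
      refine ⟨.E6, trivial, ?_⟩
      show ∃ σ : Fin 6 ≃ Fin 6, ∀ a b,
        extMat (CartanMatrix.A 5) 2 1 1 (σ a) (σ b) = CartanMatrix.E₆ a b
      exact ⟨⟨![0, 5, 1, 2, 3, 4], ![0, 2, 3, 4, 5, 1], by decide, by decide⟩, by decide⟩
    · obtain rfl : k = 3 := by omega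
      refine ⟨.E7, trivial, ?_⟩
      show ∃ σ : Fin 7 ≃ Fin 7, ∀ a b,
        extMat (CartanMatrix.A 6) 3 1 1 (σ a) (σ b) = CartanMatrix.E₇ a b
      exact ⟨⟨![5, 6, 4, 3, 2, 1, 0], ![6, 5, 4, 3, 2, 0, 1], by decide, by decide⟩, by decide⟩
    · obtain rfl : k = 4 := by omega
      refine ⟨.E8, trivial, ?_⟩
      show ∃ σ : Fin 8 ≃ Fin 8, ∀ a b,
        extMat (CartanMatrix.A 7) 4 1 1 (σ a) (σ b) = CartanMatrix.E₈ a b
      exact ⟨⟨![6, 7, 5, 4, 3, 2, 1, 0], ![7, 6, 5, 4, 3, 2, 0, 1], by decide, by decide⟩,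
        by decide⟩
    · exfalso
      let f : Fin 9 → Fin (m + 1) := fun a =>
        ⟨if (a : ℕ) < 8 then a + (m - 8) else m, by split_ifs <;> omega⟩
      refine h.noNull.no_witness f ?_ (extMat (CartanMatrix.A 8) 5 1 1)
        ![1, 2, 3, 4, 5, 6, 4, 2, 3] 0 (by decide) ?_ (by decide)
      · intro a b
        simp only [f, Fin.ext_iff]
        split_ifs <;> omega
      · intro a b
        simp [f, extMat, CartanMatrix.A, Fin.ext_iff]
        split_ifs <;> omega
  · exfalso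
    let f : Fin 8 → Fin (m + 1) := fun a =>
      ⟨if (a : ℕ) < 7 then a + (k - 3) else m, by split_ifs <;> omega⟩
    refine h.noNull.no_witness f ?_ (extMat (CartanMatrix.A 7) 3 1 1)
      ![1, 2, 3, 4, 3, 2, 1, 2] 0 (by decide) ?_ (by decide)
    · intro a b
      simp only [f, Fin.ext_iff]
      split_ifs <;> omega
    · intro a b
      simp [f, extMat, CartanMatrix.A, Fin.ext_iff]
      split_ifs <;> omega

/-- Extensions of a chain. -/
theorem extendA (hk : k < m) (hp : 1 ≤ p) (hq : 1 ≤ q)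
    (h : IsFiniteType (extMat (CartanMatrix.A m) k p q)) :
    ∃ t : DynkinType, t.Valid ∧ Matches t (extMat (CartanMatrix.A m) k p q) := by
  suffices hhalf : ∀ j, j < m → m ≤ 2 * j + 1 →
      IsFiniteType (extMat (CartanMatrix.A m) j p q) →
      ∃ t : DynkinType, t.Valid ∧ Matches t (extMat (CartanMatrix.A m) j p q) by
    by_cases hside : m ≤ 2 * k + 1
    · exact hhalf k hk hside h
    · obtain ⟨τ, hτ⟩ := extA_rev (p := p) (q := q) hk
      have h' : IsFiniteType (extMat (CartanMatrix.A m) (m - 1 - k) p q) := by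
        have := h.submatrix τ.symm τ.symm.injective
        convert this using 1
        ext a b
        rw [Matrix.submatrix_apply, ← hτ, τ.apply_symm_apply, τ.apply_symm_apply]
      obtain ⟨t, ht, hm⟩ := hhalf (m - 1 - k) (by omega) (by omega) h'
      exact ⟨t, ht, hm.of_equiv τ.symm fun a b => by
        rw [← hτ, τ.apply_symm_apply, τ.apply_symm_apply]⟩
  intro j hj hside hj'
  rcases (by omega : j = m - 1 ∨ (1 ≤ j ∧ j + 2 ≤ m)) with rfl | ⟨h1, h2⟩
  · exact extendA_end (by omega) hp hq hj'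
  · exact extendA_interior h1 h2 hside hp hq hj'

end A

end FA.Dynkin
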