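import Fermat.Agent.Dynkin.ExtendA
import Fermat.Agent.Dynkin.Chain

/-!
# Extensions of types B, C and D
-/

set_option autoImplicit false

namespace FA.Dynkin

open DynkinType

variable {m k p q : ℕ}

/-- The rotation carrying `0` to the last place. -/
def rotEquiv (m : ℕ) : Fin (m + 1) ≃ Fin (m + 1) where
  toFun a := ⟨if (a : ℕ) = 0 then m else a - 1, by split_ifs <;> omega⟩
  invFun a := ⟨if (a : ℕ) = m then 0 else a + 1, by split_ifs <;> omega⟩
  left_inv a := by
    ext
    simp only
    split_ifs <;> omega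
  right_inv a := by
    ext
    simp only
    split_ifs <;> first | omega | contradiction

lemma single_val_ne {n : ℕ} (a : Fin n) (u : ℕ) (z : Fin n) (h : (z : ℕ) ≠ a) :
    (Pi.single a u : Fin n → ℕ) z = 0 :=
  Pi.single_eq_of_ne (M := fun _ => ℕ) (fun e => h (congrArg Fin.val e)) u

lemma pair_val_ne {n : ℕ} (a b : Fin n) (z : Fin n) (h1 : (z : ℕ) ≠ a) (h2 : (z : ℕ) ≠ b) :
    (Pi.single a 1 + Pi.single b 1 : Fin n → ℕ) z = 0 := by
  rw [Pi.add_apply, single_val_ne a 1 z h1, single_val_ne b 1 z h2]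

lemma rotEquiv_val (m : ℕ) (a : Fin (m + 1)) :
    (rotEquiv m a : ℕ) = if (a : ℕ) = 0 then m else (a : ℕ) - 1 := rfl

lemma rotEquiv_zero (m : ℕ) : rotEquiv m 0 = Fin.last m := Fin.ext rfl

lemma rotEquiv_succ {m : ℕ} (i : Fin m) : rotEquiv m i.succ = i.castSucc :=
  Fin.ext (by simp [rotEquiv_val])

lemma extMat_old {m : ℕ} (T : Matrix (Fin m) (Fin m) ℤ) (k p q : ℕ) (i j : Fin m) :
    extMat T k p q i.castSucc j.castSucc = T i j := by
  simp [extMat]

lemma extMat_new {m : ℕ} (T : Matrix (Fin m) (Fin m) ℤ) (k p q : ℕ) :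
    extMat T k p q (Fin.last m) (Fin.last m) = 2 := by
  simp [extMat]

lemma extMat_old_new {m : ℕ} (T : Matrix (Fin m) (Fin m) ℤ) (k p q : ℕ) (i : Fin m) :
    extMat T k p q i.castSucc (Fin.last m) = if (i : ℕ) = k then -(q : ℤ) else 0 := by
  simp [extMat]

lemma extMat_new_old {m : ℕ} (T : Matrix (Fin m) (Fin m) ℤ) (k p q : ℕ) (j : Fin m) :
    extMat T k p q (Fin.last m) j.castSucc = if (j : ℕ) = k then -(p : ℤ) else 0 := by
  simp [extMat]

/-- A type B matrix with a multiple bond attached is not of finite type. -/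
theorem extendB_multiple (hm : 2 ≤ m) (hk : k < m) (hp : 1 ≤ p) (hq : 1 ≤ q)
    (hpq : ¬(p = 1 ∧ q = 1)) (h : IsFiniteType (extMat (CartanMatrix.B m) k p q)) : False := by
  obtain ⟨u, hu⟩ := gadget_multiple (C := extMat (CartanMatrix.B m) k p q)
    (e := (⟨k, by omega⟩ : Fin (m + 1))) (a := ⟨m, by omega⟩) (by simp [Fin.ext_iff]; omega)
    p q hp hq hpq (by simp [extMat, hk]) (by simp [extMat, hk])
  by_cases hlast : k + 1 = m
  · obtain ⟨u', hu'⟩ := gadget_multiple (C := extMat (CartanMatrix.B m) k p q)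
      (e := (⟨k, by omega⟩ : Fin (m + 1))) (a := ⟨m - 2, by omega⟩) (by simp [Fin.ext_iff]; omega)
      2 1 (by omega) (by omega) (by omega)
      (by simp [extMat, CartanMatrix.B, hk, show m - 2 < m by omega]; split_ifs <;> omega)
      (by simp [extMat, CartanMatrix.B, hk, show m - 2 < m by omega]; split_ifs <;> omega)
    refine h.no_chain 0 (fun _ => ⟨k, by omega⟩) (fun i j _ => Fin.ext (by omega))
      (fun i j hij => ?_) (Pi.single ⟨m, by omega⟩ u) (Pi.single ⟨m - 2, by omega⟩ u') hu hu'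
      (fun _ => single_val_ne _ _ _ (by simp; omega)) (fun _ => single_val_ne _ _ _ (by simp; omega))
      fun z => ?_
    · omega
    · by_cases hz : (z : ℕ) = m
      · exact Or.inr (single_val_ne _ _ _ (by simp; omega))
      · exact Or.inl (single_val_ne _ _ _ hz)
  · obtain ⟨u', hu'⟩ := gadget_multiple (C := extMat (CartanMatrix.B m) k p q)
      (e := (⟨m - 2, by omega⟩ : Fin (m + 1))) (a := ⟨m - 1, by omega⟩)
      (by simp [Fin.ext_iff]; omega) 1 2 le_rfl (by omega) (by omega)
      (by simp [extMat, CartanMatrix.B, show m - 2 < m by omega, show m - 1 < m by omega]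
          split_ifs <;> omega)
      (by simp [extMat, CartanMatrix.B, show m - 2 < m by omega, show m - 1 < m by omega]
          split_ifs <;> omega)
    refine h.no_chain (m - 2 - k) (fun i => ⟨k + i, by omega⟩)
      (fun i j hij => Fin.ext (by simp [Fin.ext_iff] at hij; omega))
      (fun i j hij => ?_) (Pi.single ⟨m, by omega⟩ u) (Pi.single ⟨m - 1, by omega⟩ u') ?_ ?_
      (fun i => single_val_ne _ _ _ (by simp; omega)) (fun i => single_val_ne _ _ _ (by simp; omega))
      fun z => ?_
    · have hi := i.isLt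
      have hj := j.isLt
      constructor <;>
        simp [extMat, CartanMatrix.B, show k + (i : ℕ) < m by omega,
          show k + (j : ℕ) < m by omega] <;>
        (try split_ifs) <;> omega
    · simpa using hu
    · convert hu' using 1
      simp [Fin.ext_iff]
      omega
    · by_cases hz : (z : ℕ) = m
      · exact Or.inr (single_val_ne _ _ _ (by simp; omega))
      · exact Or.inl (single_val_ne _ _ _ hz)

/-- A type B matrix with a branch is not of finite type. -/
theorem extendB_branch (hk1 : 1 ≤ k) (hk : k + 2 ≤ m) (hp : 1 ≤ p) (hq : 1 ≤ q)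
    (h : IsFiniteType (extMat (CartanMatrix.B m) k p q)) : False := by
  obtain ⟨u', hu'⟩ := gadget_multiple (C := extMat (CartanMatrix.B m) k p q)
    (e := (⟨m - 2, by omega⟩ : Fin (m + 1))) (a := ⟨m - 1, by omega⟩)
    (by simp [Fin.ext_iff]; omega) 1 2 le_rfl (by omega) (by omega)
    (by simp [extMat, CartanMatrix.B, show m - 2 < m by omega, show m - 1 < m by omega]
        split_ifs <;> omega)
    (by simp [extMat, CartanMatrix.B, show m - 2 < m by omega, show m - 1 < m by omega]
        split_ifs <;> omega)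
  refine h.no_chain (m - 2 - k) (fun i => ⟨k + i, by omega⟩)
    (fun i j hij => Fin.ext (by simp [Fin.ext_iff] at hij; omega))
    (fun i j hij => ?_) (Pi.single ⟨k - 1, by omega⟩ 1 + Pi.single ⟨m, by omega⟩ 1)
    (Pi.single ⟨m - 1, by omega⟩ u') ?_ ?_
    (fun i => pair_val_ne _ _ _ (by simp; omega) (by simp; omega))
    (fun i => single_val_ne _ _ _ (by simp; omega)) fun z => ?_
  · have hi := i.isLt
    have hj := j.isLt
    constructor <;>
      simp [extMat, CartanMatrix.B, show k + (i : ℕ) < m by omega,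
        show k + (j : ℕ) < m by omega] <;>
      (try split_ifs) <;> omega
  · refine gadget_pair ?_ ?_ ?_ ?_ ?_ ?_ ?_ <;>
      simp [extMat, CartanMatrix.B, Fin.ext_iff, show k < m by omega,
        show k - 1 < m by omega] <;>
      (try split_ifs) <;> omega
  · convert hu' using 1
    simp [Fin.ext_iff]
    omega
  · by_cases hz : (z : ℕ) = m - 1
    · exact Or.inl (pair_val_ne _ _ _ (by simp; omega) (by simp; omega))
    · exact Or.inr (single_val_ne _ _ _ hz)

/-- Extensions of type B. -/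
theorem extendB (hm : 2 ≤ m) (hk : k < m) (hp : 1 ≤ p) (hq : 1 ≤ q)
    (h : IsFiniteType (extMat (CartanMatrix.B m) k p q)) :
    ∃ t : DynkinType, t.Valid ∧ Matches t (extMat (CartanMatrix.B m) k p q) := by
  by_cases hpq : p = 1 ∧ q = 1
  swap
  · exact (extendB_multiple hm hk hp hq hpq h).elim
  obtain ⟨rfl, rfl⟩ := hpq
  rcases (by omega : k = 0 ∨ (1 ≤ k ∧ k + 2 ≤ m) ∨ (1 ≤ k ∧ k + 1 = m)) with rfl | ⟨h1, h2⟩ | ⟨h1, h2⟩
  · refine ⟨.B (m + 1), by simp only [Valid]; omega, rotEquiv m, ?_⟩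
    show ∀ a b : Fin (m + 1), extMat (CartanMatrix.B m) 0 1 1 (rotEquiv m a) (rotEquiv m b) =
      CartanMatrix.B (m + 1) a b
    intro a b
    induction a using Fin.cases <;> induction b using Fin.cases <;>
      simp only [rotEquiv_zero, rotEquiv_succ, extMat_old, extMat_new, extMat_old_new,
        extMat_new_old] <;>
      simp [CartanMatrix.B, Fin.ext_iff] <;>
      (try split_ifs) <;> omega
  · exact (extendB_branch h1 h2 hp hq h).elim
  · rcases (by omega : m = 2 ∨ m = 3 ∨ 4 ≤ m) with rfl | rfl | h4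
    · obtain rfl : k = 1 := by omega
      refine ⟨.C 3, le_refl 3, ?_⟩
      show ∃ σ : Fin 3 ≃ Fin 3, ∀ a b,
        extMat (CartanMatrix.B 2) 1 1 1 (σ a) (σ b) = CartanMatrix.C 3 a b
      exact ⟨Fin.revPerm, by decide⟩
    · obtain rfl : k = 2 := by omega
      refine ⟨.F4, trivial, ?_⟩
      show ∃ σ : Fin 4 ≃ Fin 4, ∀ a b,
        extMat (CartanMatrix.B 3) 2 1 1 (σ a) (σ b) = CartanMatrix.F₄ a b
      exact ⟨Equiv.refl _, by decide⟩
    · exfalso
      let f : Fin 5 → Fin (m + 1) := fun a => ⟨a + (m - 4), by omega⟩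
      refine h.noNull.no_witness f ?_ (extMat (CartanMatrix.B 4) 3 1 1) ![1, 2, 3, 4, 2] 0
        (by decide) ?_ (by decide)
      · intro a b
        simp [f, Fin.ext_iff]
      · intro a b
        simp [f, extMat, CartanMatrix.B, Fin.ext_iff]
        split_ifs <;> omega

/-- Extensions of type D. -/
theorem extendD (hm : 4 ≤ m) (hk : k < m) (hp : 1 ≤ p) (hq : 1 ≤ q)
    (h : IsFiniteType (extMat (CartanMatrix.D m) k p q)) :
    ∃ t : DynkinType, t.Valid ∧ Matches t (extMat (CartanMatrix.D m) k p q) := by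
  have hright : Gadget (extMat (CartanMatrix.D m) k p q) (⟨m - 3, by omega⟩ : Fin (m + 1))
      (Pi.single ⟨m - 2, by omega⟩ 1 + Pi.single ⟨m - 1, by omega⟩ 1) := by
    refine gadget_pair ?_ ?_ ?_ ?_ ?_ ?_ ?_ <;>
      simp [extMat, CartanMatrix.D, Fin.ext_iff, show m - 3 < m by omega, show m - 2 < m by omega,
        show m - 1 < m by omega] <;>
      (try split_ifs) <;> omega
  by_cases hint : 1 ≤ k ∧ k + 3 ≤ m
  · exfalso
    refine h.no_chain (m - 3 - k) (fun i => ⟨k + i, by omega⟩)
      (fun i j hij => Fin.ext (by simp [Fin.ext_iff] at hij; omega))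
      (fun i j hij => ?_) (Pi.single ⟨k - 1, by omega⟩ 1 + Pi.single ⟨m, by omega⟩ 1)
      (Pi.single ⟨m - 2, by omega⟩ 1 + Pi.single ⟨m - 1, by omega⟩ 1) ?_ ?_
      (fun i => pair_val_ne _ _ _ (by simp; omega) (by simp; omega))
      (fun i => pair_val_ne _ _ _ (by simp; omega) (by simp; omega)) fun z => ?_
    · have hi := i.isLt
      have hj := j.isLt
      constructor <;>
        simp [extMat, CartanMatrix.D, show k + (i : ℕ) < m by omega,
          show k + (j : ℕ) < m by omega] <;>
        (try split_ifs) <;> omega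
    · refine gadget_pair ?_ ?_ ?_ ?_ ?_ ?_ ?_ <;>
        simp [extMat, CartanMatrix.D, Fin.ext_iff, show k < m by omega,
          show k - 1 < m by omega] <;>
        (try split_ifs) <;> omega
    · convert hright using 1
      simp [Fin.ext_iff]
      omega
    · by_cases hz : (z : ℕ) = m - 2 ∨ (z : ℕ) = m - 1
      · exact Or.inl (pair_val_ne _ _ _ (by simp; omega) (by simp; omega))
      · exact Or.inr (pair_val_ne _ _ _ (by simp; omega) (by simp; omega))
  by_cases hpq : p = 1 ∧ q = 1
  swap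
  · exfalso
    obtain ⟨u, hu⟩ := gadget_multiple (C := extMat (CartanMatrix.D m) k p q)
      (e := (⟨k, by omega⟩ : Fin (m + 1))) (a := ⟨m, by omega⟩) (by simp [Fin.ext_iff]; omega)
      p q hp hq hpq (by simp [extMat, hk]) (by simp [extMat, hk])
    rcases eq_or_ne k 0 with rfl | hk0
    · refine h.no_chain (m - 3) (fun i => ⟨i, by omega⟩)
        (fun i j hij => Fin.ext (by simp [Fin.ext_iff] at hij; omega))
        (fun i j hij => ?_) (Pi.single ⟨m, by omega⟩ u)
        (Pi.single ⟨m - 2, by omega⟩ 1 + Pi.single ⟨m - 1, by omega⟩ 1) hu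
        (by convert hright using 1; simp)
        (fun i => single_val_ne _ _ _ (by simp; omega))
        (fun i => pair_val_ne _ _ _ (by simp; omega) (by simp; omega)) fun z => ?_
      · have hi := i.isLt
        have hj := j.isLt
        constructor <;>
          simp [extMat, CartanMatrix.D, show (i : ℕ) < m by omega, show (j : ℕ) < m by omega] <;>
          (try split_ifs) <;> omega
      · by_cases hz : (z : ℕ) = m
        · exact Or.inr (pair_val_ne _ _ _ (by simp; omega) (by simp; omega))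
        · exact Or.inl (single_val_ne _ _ _ hz)
    · refine h.no_chain 1 ![⟨k, by omega⟩, ⟨m - 3, by omega⟩] ?_ (fun i j hij => ?_)
        (Pi.single ⟨m, by omega⟩ u)
        (Pi.single ⟨m - 4, by omega⟩ 1 + Pi.single ⟨2 * m - 3 - k, by omega⟩ 1) hu ?_
        (fun i => ?_) (fun i => ?_) fun z => ?_
      · intro i j
        fin_cases i <;> fin_cases j <;> simp <;> omega
      · obtain ⟨rfl, rfl⟩ : i = 0 ∧ j = 1 := by
          constructor <;> apply Fin.ext <;> simp <;> omega
        constructor <;>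
          simp [extMat, CartanMatrix.D, show k < m by omega, show m - 3 < m by omega,
            Fin.ext_iff] <;>
          (try split_ifs) <;> omega
      · refine gadget_pair ?_ ?_ ?_ ?_ ?_ ?_ ?_ <;>
          simp [extMat, CartanMatrix.D, Fin.ext_iff, show m - 3 < m by omega,
            show m - 4 < m by omega, show 2 * m - 3 - k < m by omega] <;>
          (try split_ifs) <;> omega
      · exact single_val_ne _ _ _ (by fin_cases i <;> simp <;> omega)
      · exact pair_val_ne _ _ _ (by fin_cases i <;> simp <;> omega)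
          (by fin_cases i <;> simp <;> omega)
      · by_cases hz : (z : ℕ) = m
        · exact Or.inr (pair_val_ne _ _ _ (by simp; omega) (by simp; omega))
        · exact Or.inl (single_val_ne _ _ _ hz)
  obtain ⟨rfl, rfl⟩ := hpq
  rcases (by omega : k = 0 ∨ k + 2 = m ∨ k + 1 = m) with rfl | h1 | h1
  · refine ⟨.D (m + 1), by simp only [Valid]; omega, rotEquiv m, ?_⟩
    show ∀ a b : Fin (m + 1), extMat (CartanMatrix.D m) 0 1 1 (rotEquiv m a) (rotEquiv m b) =
      CartanMatrix.D (m + 1) a b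
    intro a b
    induction a using Fin.cases <;> induction b using Fin.cases <;>
      simp only [rotEquiv_zero, rotEquiv_succ, extMat_old, extMat_new, extMat_old_new,
        extMat_new_old] <;>
      simp [CartanMatrix.D, Fin.ext_iff] <;>
      (try split_ifs) <;> omega
  · rcases (by omega : m = 4 ∨ m = 5 ∨ m = 6 ∨ m = 7 ∨ 8 ≤ m) with rfl | rfl | rfl | rfl | h8
    · obtain rfl : k = 2 := by omega
      refine ⟨.D 5, by simp [Valid], ?_⟩
      show ∃ σ : Fin 5 ≃ Fin 5, ∀ a b,
        extMat (CartanMatrix.D 4) 2 1 1 (σ a) (σ b) = CartanMatrix.D 5 a b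
      exact ⟨⟨![4, 2, 1, 0, 3], ![3, 2, 1, 4, 0], by decide, by decide⟩, by decide⟩
    · obtain rfl : k = 3 := by omega
      refine ⟨.E6, trivial, ?_⟩
      show ∃ σ : Fin 6 ≃ Fin 6, ∀ a b,
        extMat (CartanMatrix.D 5) 3 1 1 (σ a) (σ b) = CartanMatrix.E₆ a b
      exact ⟨⟨![0, 4, 1, 2, 3, 5], ![0, 2, 3, 4, 1, 5], by decide, by decide⟩, by decide⟩
    · obtain rfl : k = 4 := by omega
      refine ⟨.E7, trivial, ?_⟩
      show ∃ σ : Fin 7 ≃ Fin 7, ∀ a b,
        extMat (CartanMatrix.D 6) 4 1 1 (σ a) (σ b) = CartanMatrix.E₇ a b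
      exact ⟨⟨![6, 5, 4, 3, 2, 1, 0], ![6, 5, 4, 3, 2, 1, 0], by decide, by decide⟩, by decide⟩
    · obtain rfl : k = 5 := by omega
      refine ⟨.E8, trivial, ?_⟩
      show ∃ σ : Fin 8 ≃ Fin 8, ∀ a b,
        extMat (CartanMatrix.D 7) 5 1 1 (σ a) (σ b) = CartanMatrix.E₈ a b
      exact ⟨⟨![7, 6, 5, 4, 3, 2, 1, 0], ![7, 6, 5, 4, 3, 2, 1, 0], by decide, by decide⟩,
        by decide⟩
    · exfalso
      let f : Fin 9 → Fin (m + 1) := fun a => ⟨a + (m - 8), by omega⟩
      refine h.noNull.no_witness f ?_ (extMat (CartanMatrix.D 8) 6 1 1)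
        ![1, 2, 3, 4, 5, 6, 4, 3, 2] 0 (by decide) ?_ (by decide)
      · intro a b
        simp [f, Fin.ext_iff]
      · intro a b
        have hf1 : f (Fin.last 8) = Fin.last m := Fin.ext (show 8 + (m - 8) = m by omega)
        have hf2 : ∀ i : Fin 8, f i.castSucc = (⟨i + (m - 8), by omega⟩ : Fin m).castSucc :=
          fun i => Fin.ext rfl
        induction a using Fin.lastCases <;> induction b using Fin.lastCases <;>
          simp only [hf1, hf2, extMat_old, extMat_new, extMat_old_new, extMat_new_old] <;>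
          simp [CartanMatrix.D, Fin.ext_iff] <;>
          (try split_ifs) <;> omega
  · rcases (by omega : m = 4 ∨ m = 5 ∨ m = 6 ∨ m = 7 ∨ 8 ≤ m) with rfl | rfl | rfl | rfl | h8
    · obtain rfl : k = 3 := by omega
      refine ⟨.D 5, by simp [Valid], ?_⟩
      show ∃ σ : Fin 5 ≃ Fin 5, ∀ a b,
        extMat (CartanMatrix.D 4) 3 1 1 (σ a) (σ b) = CartanMatrix.D 5 a b
      exact ⟨⟨![4, 3, 1, 0, 2], ![3, 2, 4, 1, 0], by decide, by decide⟩, by decide⟩
    · obtain rfl : k = 4 := by omega
      refine ⟨.E6, trivial, ?_⟩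
      show ∃ σ : Fin 6 ≃ Fin 6, ∀ a b,
        extMat (CartanMatrix.D 5) 4 1 1 (σ a) (σ b) = CartanMatrix.E₆ a b
      exact ⟨⟨![0, 3, 1, 2, 4, 5], ![0, 2, 3, 1, 4, 5], by decide, by decide⟩, by decide⟩
    · obtain rfl : k = 5 := by omega
      refine ⟨.E7, trivial, ?_⟩
      show ∃ σ : Fin 7 ≃ Fin 7, ∀ a b,
        extMat (CartanMatrix.D 6) 5 1 1 (σ a) (σ b) = CartanMatrix.E₇ a b
      exact ⟨⟨![6, 4, 5, 3, 2, 1, 0], ![6, 5, 4, 3, 1, 2, 0], by decide, by decide⟩, by decide⟩
    · obtain rfl : k = 6 := by omega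
      refine ⟨.E8, trivial, ?_⟩
      show ∃ σ : Fin 8 ≃ Fin 8, ∀ a b,
        extMat (CartanMatrix.D 7) 6 1 1 (σ a) (σ b) = CartanMatrix.E₈ a b
      exact ⟨⟨![7, 5, 6, 4, 3, 2, 1, 0], ![7, 6, 5, 4, 3, 1, 2, 0], by decide, by decide⟩,
        by decide⟩
    · exfalso
      let f : Fin 9 → Fin (m + 1) := fun a => ⟨a + (m - 8), by omega⟩
      refine h.noNull.no_witness f ?_ (extMat (CartanMatrix.D 8) 7 1 1)
        ![1, 2, 3, 4, 5, 6, 3, 4, 2] 0 (by decide) ?_ (by decide)
      · intro a b
        simp [f, Fin.ext_iff]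
      · intro a b
        have hf1 : f (Fin.last 8) = Fin.last m := Fin.ext (show 8 + (m - 8) = m by omega)
        have hf2 : ∀ i : Fin 8, f i.castSucc = (⟨i + (m - 8), by omega⟩ : Fin m).castSucc :=
          fun i => Fin.ext rfl
        induction a using Fin.lastCases <;> induction b using Fin.lastCases <;>
          simp only [hf1, hf2, extMat_old, extMat_new, extMat_old_new, extMat_new_old] <;>
          simp [CartanMatrix.D, Fin.ext_iff] <;>
          (try split_ifs) <;> omega

/-- Extensions of type C, by duality. -/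
theorem extendC (hm : 3 ≤ m) (hk : k < m) (hp : 1 ≤ p) (hq : 1 ≤ q)
    (h : IsFiniteType (extMat (CartanMatrix.C m) k p q)) :
    ∃ t : DynkinType, t.Valid ∧ Matches t (extMat (CartanMatrix.C m) k p q) := by
  have h' := h.transpose
  rw [extMat_transpose, CartanMatrix.C_transpose] at h'
  obtain ⟨t, ht, hmt⟩ := extendB (by omega) hk hq hp h'
  have h2 := hmt.transpose
  rw [extMat_transpose, CartanMatrix.B_transpose] at h2
  exact ⟨t.dual, valid_dual ht, h2⟩

end FA.Dynkin
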