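import Mathlib.Combinatorics.SimpleGraph.Acyclic
import Mathlib.LinearAlgebra.Matrix.Defs
import Mathlib.Algebra.BigOperators.Fin
import Mathlib.Algebra.Order.BigOperators.Group.Finset
import Mathlib.Data.Rat.Cast.Order
import Mathlib.Tactic

/-!
# Generalised Cartan matrices of finite type

A generalised Cartan matrix is of finite type here when neither it nor its transpose has a
nonnegative nonzero vector that it maps to a vector nonpositive on the support. Symmetrisable
positive definite matrices have this property, and their diagrams are forests.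
-/

set_option autoImplicit false
set_option linter.unusedSectionVars false

namespace FA.Dynkin

open Finset

variable {ι κ : Type*}

/-- A generalised Cartan matrix. -/
structure IsGCM (C : Matrix ι ι ℤ) : Prop where
  diag : ∀ i, C i i = 2
  nonpos : ∀ i j, i ≠ j → C i j ≤ 0
  zero_comm : ∀ i j, C i j = 0 → C j i = 0

/-- There is no null vector: every nonnegative nonzero `v` has a coordinate in its support on which
`v C` is positive. -/
def NoNull [Fintype ι] (C : Matrix ι ι ℤ) : Prop :=
  ∀ v : ι → ℕ, v ≠ 0 → ∃ j, v j ≠ 0 ∧ 0 < ∑ k, (v k : ℤ) * C k j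

/-- Finite type. -/
structure IsFiniteType [Fintype ι] (C : Matrix ι ι ℤ) : Prop extends IsGCM C where
  noNull : NoNull C
  noNull_transpose : NoNull C.transpose

lemma IsFiniteType.transpose [Fintype ι] {C : Matrix ι ι ℤ} (h : IsFiniteType C) :
    IsFiniteType C.transpose where
  diag := h.diag
  nonpos i j hij := h.nonpos j i hij.symm
  zero_comm i j hij := h.zero_comm j i hij
  noNull := h.noNull_transpose
  noNull_transpose := by rw [Matrix.transpose_transpose]; exact h.noNull

/-- A symmetrisable positive definite generalised Cartan matrix is of finite type. -/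
theorem isFiniteType_of_pos [Fintype ι] {C : Matrix ι ι ℤ} (h : IsGCM C) (d : ι → ℤ)
    (hd : ∀ i, 0 < d i) (hsymm : ∀ i j, C i j * d j = C j i * d i)
    (hpos : ∀ x : ι → ℚ, x ≠ 0 → 0 < ∑ i, ∑ j, x i * (C i j : ℚ) * (d j : ℚ) * x j) :
    IsFiniteType C := by
  have key : ∀ (e : ι → ℚ) (M : Matrix ι ι ℤ), (∀ i, 0 < e i) →
      (∀ x : ι → ℚ, x ≠ 0 → 0 < ∑ i, ∑ j, x i * (M i j : ℚ) * e j * x j) → NoNull M := by
    intro e M he hM v hv
    by_contra hcon
    push Not at hcon
    have hx : (fun i => (v i : ℚ)) ≠ 0 := fun h0 => hv (funext fun i => by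
      have := congrFun h0 i
      simpa using this)
    refine not_lt.2 ?_ (hM _ hx)
    rw [Finset.sum_comm]
    refine Finset.sum_nonpos fun j _ => ?_
    rw [← Finset.sum_mul, ← Finset.sum_mul]
    rcases eq_or_ne (v j) 0 with h0 | h0
    · simp [h0]
    · have h1 : (∑ i, (v i : ℚ) * (M i j : ℚ)) ≤ 0 := by exact_mod_cast hcon j h0
      exact mul_nonpos_of_nonpos_of_nonneg
        (mul_nonpos_of_nonpos_of_nonneg h1 (he j).le) (Nat.cast_nonneg _)
  refine ⟨h, key (fun i => d i) C (fun i => by exact_mod_cast hd i) hpos,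
    key (fun i => ((d i : ℚ))⁻¹) C.transpose (fun i => inv_pos.2 (by exact_mod_cast hd i))
      fun x hx => ?_⟩
  have hd0 : ∀ i, (d i : ℚ) ≠ 0 := fun i => by exact_mod_cast (hd i).ne'
  have hy : (fun i => x i / (d i : ℚ)) ≠ 0 := fun h0 => hx (funext fun i => by
    have := congrFun h0 i
    simpa [hd0 i] using this)
  refine lt_of_lt_of_eq (hpos _ hy) (Finset.sum_congr rfl fun i _ => Finset.sum_congr rfl
    fun j _ => ?_)
  have hs : (C i j : ℚ) * (d j : ℚ) = (C j i : ℚ) * (d i : ℚ) := by exact_mod_cast hsymm i j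
  rw [Matrix.transpose_apply, mul_assoc (x i / (d i : ℚ)), hs]
  field_simp [hd0 i, hd0 j]

/-- A nonnegative vector on a subdiagram that is null for a matrix dominating the corresponding
entries contradicts `NoNull`. -/
theorem NoNull.no_witness [Fintype ι] [Fintype κ] {C : Matrix ι ι ℤ} (h : NoNull C) (f : κ → ι)
    (hf : Function.Injective f) (M : Matrix κ κ ℤ) (v : κ → ℕ) (a₀ : κ) (ha₀ : v a₀ ≠ 0)
    (hle : ∀ a b, C (f a) (f b) ≤ M a b)
    (hM : ∀ a, v a ≠ 0 → ∑ b, (v b : ℤ) * M b a ≤ 0) : False := by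
  classical
  obtain ⟨j, hj, hpos⟩ := h (Function.extend f v 0) fun h0 => ha₀ (by
    have := congrFun h0 (f a₀)
    rwa [hf.extend_apply] at this)
  obtain ⟨a, rfl⟩ : ∃ a, f a = j := by
    by_contra hcon
    push Not at hcon
    exact hj (Function.extend_apply' v (0 : ι → ℕ) j (fun ⟨a, ha⟩ => hcon a ha))
  rw [hf.extend_apply] at hj
  refine not_lt.2 (hM a hj) (lt_of_lt_of_le hpos ?_)
  rw [← Finset.sum_subset (Finset.subset_univ (Finset.univ.image f)) fun k _ hk => ?_]
  · rw [Finset.sum_image hf.injOn]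
    refine Finset.sum_le_sum fun b _ => ?_
    rw [hf.extend_apply]
    exact mul_le_mul_of_nonneg_left (hle b a) (Int.natCast_nonneg _)
  · rw [Function.extend_apply' v (0 : ι → ℕ) k (fun ⟨b, hb⟩ => hk (mem_image.2 ⟨b, mem_univ _, hb⟩))]
    simp

/-- Finite type passes to principal submatrices. -/
theorem IsFiniteType.submatrix [Fintype ι] [Fintype κ] {C : Matrix ι ι ℤ} (h : IsFiniteType C)
    (f : κ → ι) (hf : Function.Injective f) : IsFiniteType (C.submatrix f f) where
  diag i := h.diag (f i)
  nonpos i j hij := h.nonpos _ _ (hf.ne hij)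
  zero_comm i j hij := h.zero_comm _ _ hij
  noNull v hv := by
    by_contra hcon
    push Not at hcon
    obtain ⟨a₀, ha₀⟩ := Function.ne_iff.1 hv
    exact h.noNull.no_witness f hf (C.submatrix f f) v a₀ ha₀ (fun _ _ => le_rfl) hcon
  noNull_transpose v hv := by
    by_contra hcon
    push Not at hcon
    obtain ⟨a₀, ha₀⟩ := Function.ne_iff.1 hv
    exact h.noNull_transpose.no_witness f hf (C.submatrix f f).transpose v a₀ ha₀
      (fun _ _ => le_rfl) hcon

/-- The product of opposite off-diagonal entries is at most three. -/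
theorem IsFiniteType.mul_le_three [Fintype ι] {C : Matrix ι ι ℤ} (h : IsFiniteType C) {i j : ι}
    (hij : i ≠ j) : C i j * C j i ≤ 3 := by
  by_contra hcon
  push Not at hcon
  have h1 := h.nonpos i j hij
  have h2 := h.nonpos j i hij.symm
  have hinj : Function.Injective ![i, j] := by
    intro a b
    fin_cases a <;> fin_cases b <;> simp [hij, hij.symm]
  obtain ⟨a, ha⟩ : ∃ a : ℕ, C i j = -(a : ℤ) := ⟨(-C i j).toNat, by omega⟩
  have ha0 : a ≠ 0 := fun h0 => by simp [ha, h0] at hcon
  refine h.noNull.no_witness ![i, j] hinj (C.submatrix ![i, j] ![i, j]) ![2, a] 0 (by simp)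
    (fun _ _ => le_rfl) fun b _ => ?_
  fin_cases b <;> simp [h.diag, ha] <;> nlinarith

/-- The diagram of a matrix. -/
def graph (C : Matrix ι ι ℤ) : SimpleGraph ι :=
  SimpleGraph.fromRel fun i j => C i j ≠ 0

lemma IsGCM.graph_adj {C : Matrix ι ι ℤ} (h : IsGCM C) {i j : ι} :
    (graph C).Adj i j ↔ i ≠ j ∧ C i j ≠ 0 := by
  rw [graph, SimpleGraph.fromRel_adj]
  exact and_congr_right fun _ => ⟨fun h' => h'.elim id fun h0 h1 => h0 (h.zero_comm i j h1), Or.inl⟩

/-- The diagram of a matrix of finite type has no cycle. -/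
theorem IsFiniteType.isAcyclic [Fintype ι] {C : Matrix ι ι ℤ} (h : IsFiniteType C) :
    (graph C).IsAcyclic := by
  classical
  intro u c hc
  obtain ⟨j, hj, hpos⟩ := h.noNull (fun i => if i ∈ c.support then 1 else 0) fun h0 => by
    have := congrFun h0 u
    simp at this
  have hjs : j ∈ c.support := by
    by_contra h0
    simp [h0] at hj
  let c' := c.rotate j hjs
  have hc' : c'.IsCycle := hc.rotate hjs
  have hnil := hc'.not_nil
  have hs : ∀ z ∈ c'.support, z ∈ c.support := fun z hz => (c.mem_support_rotate_iff j hjs).1 hz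
  have ha := (c'.adj_snd hnil)
  have hb := (c'.adj_penultimate hnil).symm
  rw [h.graph_adj] at ha hb
  have hab := hc'.snd_ne_penultimate
  have hsa : c'.snd ∈ c.support := hs _ (c'.getVert_mem_support _)
  have hsb : c'.penultimate ∈ c.support := hs _ (c'.getVert_mem_support _)
  have hCa : C c'.snd j ≤ -1 := by
    have h1 := h.nonpos _ _ ha.1.symm
    have h2 : C c'.snd j ≠ 0 := fun h0 => ha.2 (h.zero_comm _ _ h0)
    omega
  have hCb : C c'.penultimate j ≤ -1 := by
    have h1 := h.nonpos _ _ hb.1.symm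
    have h2 : C c'.penultimate j ≠ 0 := fun h0 => hb.2 (h.zero_comm _ _ h0)
    omega
  rw [← Finset.add_sum_erase _ _ (mem_univ j), ← Finset.add_sum_erase _ _
    (mem_erase.2 ⟨ha.1.symm, mem_univ c'.snd⟩), ← Finset.add_sum_erase _ _
    (mem_erase.2 ⟨hab.symm, mem_erase.2 ⟨hb.1.symm, mem_univ c'.penultimate⟩⟩)] at hpos
  have hrest : ∑ x ∈ ((univ.erase j).erase c'.snd).erase c'.penultimate,
      ((if x ∈ c.support then 1 else 0 : ℕ) : ℤ) * C x j ≤ 0 :=
    Finset.sum_nonpos fun x hx => mul_nonpos_of_nonneg_of_nonpos (Int.natCast_nonneg _)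
      (h.nonpos _ _ (mem_erase.1 (mem_erase.1 (mem_erase.1 hx).2).2).1)
  simp only [hjs, hsa, hsb, if_true, Nat.cast_one, one_mul, h.diag] at hpos
  omega

end FA.Dynkin
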