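import Fermat.Agent.Dynkin.FiniteType
import Mathlib.LinearAlgebra.Matrix.ToLinearEquiv
import Mathlib.LinearAlgebra.Matrix.NonsingularInverse

/-!
# The roots of a symmetrisable positive definite Cartan matrix

The orbit of the coordinate vectors under the simple reflections is finite, consists of vectors of
constant sign, is stable under all its reflections and is reduced.
-/

set_option autoImplicit false

namespace FA.Dynkin

open Finset

variable {ι : Type*} [Fintype ι] [DecidableEq ι]

/-- A symmetrisable positive definite generalised Cartan matrix, with a symmetriser. -/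
structure SymGCM (ι : Type*) [Fintype ι] where
  /-- The matrix. -/
  C : Matrix ι ι ℤ
  /-- The symmetriser. -/
  d : ι → ℤ
  gcm : IsGCM C
  dpos : ∀ i, 0 < d i
  symm : ∀ i j, C i j * d j = C j i * d i
  pos : ∀ x : ι → ℚ, x ≠ 0 → 0 < ∑ i, ∑ j, x i * (C i j : ℚ) * (d j : ℚ) * x j

namespace SymGCM

variable (S : SymGCM ι)

/-- The bilinear form. -/
def form (u v : ι → ℤ) : ℤ := ∑ i, ∑ j, u i * S.C i j * S.d j * v j

/-- The `j`-th coroot evaluated at a vector. -/
def cv (j : ι) (v : ι → ℤ) : ℤ := ∑ i, v i * S.C i j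

/-- The simple reflection. -/
def refl (j : ι) (v : ι → ℤ) : ι → ℤ := v - S.cv j v • Pi.single j 1

omit [DecidableEq ι] in
lemma form_comm (u v : ι → ℤ) : S.form u v = S.form v u := by
  rw [form, form, Finset.sum_comm]
  exact sum_congr rfl fun i _ => sum_congr rfl fun j _ => by
    rw [mul_assoc (u j), S.symm]; ring

omit [DecidableEq ι] in
lemma form_add_left (u u' v : ι → ℤ) : S.form (u + u') v = S.form u v + S.form u' v := by
  simp only [form, Pi.add_apply, add_mul, sum_add_distrib]

omit [DecidableEq ι] in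
lemma form_sub_left (u u' v : ι → ℤ) : S.form (u - u') v = S.form u v - S.form u' v := by
  simp only [form, Pi.sub_apply, sub_mul, sum_sub_distrib]

omit [DecidableEq ι] in
lemma form_smul_left (c : ℤ) (u v : ι → ℤ) : S.form (c • u) v = c * S.form u v := by
  simp only [form, Pi.smul_apply, smul_eq_mul, mul_sum]
  exact sum_congr rfl fun i _ => sum_congr rfl fun j _ => by ring

omit [DecidableEq ι] in
lemma form_sub_right (u v v' : ι → ℤ) : S.form u (v - v') = S.form u v - S.form u v' := by
  rw [S.form_comm, form_sub_left, S.form_comm v, S.form_comm v']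

omit [DecidableEq ι] in
lemma form_smul_right (c : ℤ) (u v : ι → ℤ) : S.form u (c • v) = c * S.form u v := by
  rw [S.form_comm, form_smul_left, S.form_comm]

lemma form_single_right (u : ι → ℤ) (j : ι) :
    S.form u (Pi.single j 1) = S.cv j u * S.d j := by
  rw [form, cv, sum_mul]
  refine sum_congr rfl fun i _ => ?_
  rw [sum_eq_single j (fun k _ hk => by simp [Pi.single_eq_of_ne hk]) (by simp)]
  simp

lemma cv_single (i j : ι) : S.cv j (Pi.single i 1) = S.C i j := by
  rw [cv, sum_eq_single i (fun k _ hk => by simp [Pi.single_eq_of_ne hk]) (by simp)]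
  simp

lemma form_single (i : ι) : S.form (Pi.single i 1) (Pi.single i 1) = 2 * S.d i := by
  rw [form_single_right, cv_single, S.gcm.diag]

lemma cv_sub_smul (j : ι) (u v : ι → ℤ) (c : ℤ) :
    S.cv j (u - c • v) = S.cv j u - c * S.cv j v := by
  simp only [cv, Pi.sub_apply, Pi.smul_apply, smul_eq_mul, sub_mul, sum_sub_distrib, mul_sum,
    mul_assoc]

lemma refl_refl (j : ι) (v : ι → ℤ) : S.refl j (S.refl j v) = v := by
  have h : S.cv j (S.refl j v) = -S.cv j v := by
    rw [refl, cv_sub_smul, cv_single, S.gcm.diag]; ring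
  rw [refl, h, refl]
  simp

lemma refl_sub_smul (j : ι) (u v : ι → ℤ) (c : ℤ) :
    S.refl j (u - c • v) = S.refl j u - c • S.refl j v := by
  funext k
  simp only [refl, cv_sub_smul, Pi.sub_apply, Pi.smul_apply, smul_eq_mul]
  ring

lemma form_refl_refl (j : ι) (u v : ι → ℤ) : S.form (S.refl j u) (S.refl j v) = S.form u v := by
  rw [refl, refl, form_sub_left, form_sub_right, form_sub_right, form_smul_left, form_smul_left,
    form_smul_right, form_smul_right, form_single, form_single_right,
    S.form_comm (Pi.single j 1) v, form_single_right]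
  ring

omit [DecidableEq ι] in
lemma form_self_pos {u : ι → ℤ} (hu : u ≠ 0) : 0 < S.form u u := by
  have hx : (fun i => (u i : ℚ)) ≠ 0 := fun h0 => hu (funext fun i => by
    have := congrFun h0 i
    simpa using this)
  have h := S.pos _ hx
  have : (0 : ℚ) < ((S.form u u : ℤ) : ℚ) := by simpa [form] using h
  exact_mod_cast this

omit [DecidableEq ι] in
lemma form_self_nonneg (u : ι → ℤ) : 0 ≤ S.form u u := by
  rcases eq_or_ne u 0 with rfl | hu
  · simp [form]
  · exact (S.form_self_pos hu).le

/-- The roots: the orbit of the coordinate vectors under the simple reflections. -/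
inductive IsRoot : (ι → ℤ) → Prop
  | single (i : ι) : IsRoot (Pi.single i 1)
  | refl (j : ι) {v : ι → ℤ} : IsRoot v → IsRoot (S.refl j v)

/-- Norm and divisibility of a root. -/
lemma IsRoot.norm {v : ι → ℤ} (h : S.IsRoot v) :
    ∃ D : ℤ, 0 < D ∧ (∃ i, D = S.d i) ∧ S.form v v = 2 * D ∧ ∀ k, D ∣ S.d k * v k := by
  induction h with
  | single i =>
    refine ⟨S.d i, S.dpos i, ⟨i, rfl⟩, S.form_single i, fun k => ?_⟩
    rcases eq_or_ne k i with rfl | hk
    · simp
    · simp [Pi.single_eq_of_ne hk]
  | @refl j v _ ih =>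
    obtain ⟨D, hD, hi, hQ, hdvd⟩ := ih
    refine ⟨D, hD, hi, by rw [form_refl_refl, hQ], fun k => ?_⟩
    rcases eq_or_ne k j with rfl | hk
    · have h1 : D ∣ S.cv k v * S.d k := by
        rw [cv, sum_mul]
        refine dvd_sum fun l _ => ?_
        rw [mul_assoc, S.symm, mul_left_comm, mul_comm (v l)]
        exact dvd_mul_of_dvd_right (hdvd l) _
      simp only [SymGCM.refl, Pi.sub_apply, Pi.smul_apply, Pi.single_eq_same, smul_eq_mul, mul_one,
        mul_sub, mul_comm (S.d k) (S.cv k v)]
      exact dvd_sub (hdvd k) h1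
    · simpa [SymGCM.refl, Pi.single_eq_of_ne hk] using hdvd k

lemma IsRoot.ne_zero {v : ι → ℤ} (h : S.IsRoot v) : v ≠ 0 := fun h0 => by
  obtain ⟨D, hD, -, hQ, -⟩ := h.norm
  simp [h0, form] at hQ
  omega

omit [DecidableEq ι] in
/-- A symmetric integer matrix with even diagonal has even total sum. -/
lemma two_dvd_sum_symm (M : ι → ι → ℤ) (hs : ∀ i j, M i j = M j i) (hd : ∀ i, 2 ∣ M i i) :
    2 ∣ ∑ i, ∑ j, M i j := by
  classical
  suffices key : ∀ s : Finset ι, 2 ∣ ∑ i ∈ s, ∑ j ∈ s, M i j from key univ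
  intro s
  induction s using Finset.induction with
  | empty => simp
  | @insert a s ha ih =>
    rw [sum_insert ha, sum_insert ha, sum_congr rfl fun i _ => sum_insert ha, sum_add_distrib,
      sum_congr rfl fun i _ => hs i a]
    obtain ⟨x, hx⟩ := ih
    obtain ⟨y, hy⟩ := hd a
    exact ⟨y + x + ∑ j ∈ s, M a j, by rw [hx, hy]; ring⟩

omit [DecidableEq ι] in
lemma two_mul_dvd_form {u : ι → ℤ} {D : ℤ} (hu : ∀ k, D ∣ S.d k * u k) :
    2 * D ∣ S.form u u := by
  choose t ht using hu
  have key : ∀ i j, u i * S.C i j * S.d j * u j = D * (u i * S.C i j * t j) := fun i j => by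
    rw [mul_assoc _ (S.d j), ht]; ring
  rcases eq_or_ne D 0 with rfl | hD
  · simp [form, key]
  · rw [form, sum_congr rfl fun i _ => sum_congr rfl fun j _ => key i j]
    simp only [← mul_sum]
    rw [mul_comm 2 D]
    refine mul_dvd_mul_left D (two_dvd_sum_symm _ (fun i j => ?_) fun i => ?_)
    · refine mul_left_cancel₀ hD ?_
      rw [← key, ← key, mul_assoc _ (S.C i j), S.symm]
      ring
    · rw [S.gcm.diag]
      exact ⟨u i * t i, by ring⟩

/-- Roots have constant sign. -/
lemma IsRoot.sign {v : ι → ℤ} (h : S.IsRoot v) : (∀ k, 0 ≤ v k) ∨ ∀ k, v k ≤ 0 := by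
  by_contra hcon
  push Not at hcon
  obtain ⟨⟨a, ha⟩, b, hb⟩ := hcon
  obtain ⟨D, hD, -, hQ, hdvd⟩ := h.norm
  let p : ι → ℤ := fun k => max (v k) 0
  let m : ι → ℤ := fun k => max (-v k) 0
  have hv : v = p - m := funext fun k => by simp only [p, m, Pi.sub_apply]; omega
  have hp : ∀ k, D ∣ S.d k * p k := fun k => by
    rcases le_total 0 (v k) with h0 | h0
    · simpa [p, max_eq_left h0] using hdvd k
    · simp [p, max_eq_right h0]
  have hm : ∀ k, D ∣ S.d k * m k := fun k => by
    rcases le_total 0 (v k) with h0 | h0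
    · simp [m, max_eq_right (neg_nonpos.2 h0)]
    · simpa [m, max_eq_left (neg_nonneg.2 h0)] using dvd_neg.2 (hdvd k)
  have hp0 : p ≠ 0 := fun h0 => by
    have := congrFun h0 b
    simp only [p, Pi.zero_apply] at this
    omega
  have hm0 : m ≠ 0 := fun h0 => by
    have := congrFun h0 a
    simp only [m, Pi.zero_apply] at this
    omega
  have h1 : 2 * D ≤ S.form p p :=
    Int.le_of_dvd (S.form_self_pos hp0) (S.two_mul_dvd_form hp)
  have h2 : 2 * D ≤ S.form m m :=
    Int.le_of_dvd (S.form_self_pos hm0) (S.two_mul_dvd_form hm)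
  have h3 : S.form p m ≤ 0 := sum_nonpos fun i _ => sum_nonpos fun j _ => by
    have hpi : 0 ≤ p i := le_max_right _ _
    have hmj : 0 ≤ m j := le_max_right _ _
    rcases eq_or_ne i j with rfl | hij
    · have : p i = 0 ∨ m i = 0 := by simp only [p, m]; omega
      rcases this with h0 | h0 <;> simp [h0]
    · exact mul_nonpos_of_nonpos_of_nonneg (mul_nonpos_of_nonpos_of_nonneg
        (mul_nonpos_of_nonneg_of_nonpos hpi (S.gcm.nonpos i j hij)) (S.dpos j).le) hmj
  rw [hv, form_sub_left, form_sub_right, form_sub_right, S.form_comm m p] at hQ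
  omega

/-- The set of roots is stable under the reflection in each root. -/
lemma IsRoot.reflect {v : ι → ℤ} (h : S.IsRoot v) :
    ∀ {w : ι → ℤ} {z : ℤ}, S.IsRoot w → z * S.form v v = 2 * S.form w v →
      S.IsRoot (w - z • v) := by
  induction h with
  | single i =>
    intro w z hw hz
    rw [form_single, form_single_right] at hz
    have : z = S.cv i w := mul_right_cancel₀ (S.dpos i).ne' (by linarith)
    rw [this]
    exact hw.refl i
  | @refl j v _ ih =>
    intro w z hw hz
    rw [form_refl_refl] at hz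
    have hz' : z * S.form v v = 2 * S.form (S.refl j w) v := by
      rw [← S.form_refl_refl j (S.refl j w) v, refl_refl]
      exact hz
    have h1 := (ih (hw.refl j) hz').refl j
    rwa [refl_sub_smul, refl_refl] at h1

lemma IsRoot.neg {v : ι → ℤ} (h : S.IsRoot v) : S.IsRoot (-v) := by
  have h1 := IsRoot.reflect S h (z := 2) h rfl
  convert h1 using 1
  funext k
  simp only [Pi.neg_apply, Pi.sub_apply, Pi.smul_apply, smul_eq_mul]
  ring

/-- An integer vector proportional to a root is a multiple of it. -/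
lemma IsRoot.eq_smul {v : ι → ℤ} (h : S.IsRoot v) :
    ∀ {w : ι → ℤ}, (∀ k l, v k * w l = v l * w k) → ∃ m : ℤ, w = m • v := by
  induction h with
  | single i =>
    intro w hw
    refine ⟨w i, funext fun k => ?_⟩
    rcases eq_or_ne k i with rfl | hk
    · simp
    · have := hw i k
      simp [Pi.single_eq_of_ne hk] at this
      simp [Pi.single_eq_of_ne hk, this]
  | @refl j v _ ih =>
    intro w hw
    have hcv : ∀ l, S.refl j v l * S.cv j w = w l * S.cv j (S.refl j v) := fun l => by
      simp only [cv, mul_sum]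
      exact sum_congr rfl fun x _ => by rw [← mul_assoc, hw l x]; ring
    obtain ⟨m, hm⟩ := ih (w := S.refl j w) fun k l => by
      have e : v = S.refl j (S.refl j v) := (S.refl_refl j v).symm
      rw [e]
      generalize S.refl j v = u at hw hcv ⊢
      simp only [SymGCM.refl, Pi.sub_apply, Pi.smul_apply, smul_eq_mul]
      linear_combination hw k l - (Pi.single j 1 : ι → ℤ) l * hcv k +
        (Pi.single j 1 : ι → ℤ) k * hcv l
    refine ⟨m, ?_⟩
    rw [← S.refl_refl j w, hm]
    funext k
    simp only [SymGCM.refl, cv, Pi.sub_apply, Pi.smul_apply, smul_eq_mul, mul_assoc, ← mul_sum]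
    ring

/-- Proportional roots are equal or opposite. -/
lemma IsRoot.eq_or_eq_neg {v w : ι → ℤ} (hv : S.IsRoot v) (hw : S.IsRoot w)
    (h : ∀ k l, v k * w l = v l * w k) : v = w ∨ v = -w := by
  obtain ⟨m, hm⟩ := IsRoot.eq_smul S hv h
  obtain ⟨m', hm'⟩ := IsRoot.eq_smul S hw (w := v) fun k l => by linear_combination -(h k l)
  obtain ⟨k, hk⟩ := Function.ne_iff.1 hv.ne_zero
  have h1 : m' * m = 1 := by
    have e := congrFun hm' k
    rw [hm, Pi.smul_apply, Pi.smul_apply, smul_eq_mul, smul_eq_mul] at e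
    exact mul_right_cancel₀ hk (by linarith [e])
  rcases Int.eq_one_or_neg_one_of_mul_eq_one h1 with rfl | rfl
  · left; simpa using hm'
  · right; simpa using hm'

lemma det_ne_zero : S.C.det ≠ 0 := by
  intro h0
  have hM : (S.C.map (Int.cast : ℤ → ℚ)).det = 0 := by
    rw [show S.C.map (Int.cast : ℤ → ℚ) = (Int.castRingHom ℚ).mapMatrix S.C from rfl,
      ← RingHom.map_det, h0, map_zero]
  obtain ⟨x, hx, hx0⟩ := Matrix.exists_vecMul_eq_zero_iff.2 hM
  have h := S.pos x hx
  rw [Finset.sum_comm] at h
  refine h.ne' (sum_eq_zero fun j _ => ?_)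
  rw [← sum_mul, ← sum_mul]
  have := congrFun hx0 j
  simp only [Matrix.vecMul, dotProduct, Matrix.map_apply, Pi.zero_apply] at this
  rw [this, zero_mul, zero_mul]

/-- There are finitely many roots. -/
theorem finite_roots : {v : ι → ℤ | S.IsRoot v}.Finite := by
  classical
  let A : Matrix ι ι ℤ := S.C * Matrix.diagonal S.d
  have hA : ∀ i j, A i j = S.C i j * S.d j := fun i j => by simp [A, Matrix.mul_diagonal]
  have hdet : A.det ≠ 0 := by
    rw [Matrix.det_mul, Matrix.det_diagonal]
    exact mul_ne_zero S.det_ne_zero (prod_ne_zero_iff.2 fun i _ => (S.dpos i).ne')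
  let y : ι → ι → ℤ := fun k => fun j => A.adjugate j k
  have hy : ∀ (u : ι → ℤ) k, S.form u (y k) = u k * A.det := fun u k => by
    calc S.form u (y k) = ∑ i, u i * (A * A.adjugate) i k := by
          simp only [form, Matrix.mul_apply, mul_sum, hA, y]
          exact sum_congr rfl fun i _ => sum_congr rfl fun j _ => by ring
      _ = u k * A.det := by
          rw [Matrix.mul_adjugate, sum_eq_single k
            (fun i _ hi => by simp [Matrix.one_apply_ne hi]) (by simp)]
          simp
  have hcs : ∀ u v : ι → ℤ, S.form u v ^ 2 ≤ S.form u u * S.form v v := fun u v => by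
    rcases eq_or_ne v 0 with rfl | hv
    · simp [form]
    have h0 := S.form_self_nonneg (S.form v v • u - S.form u v • v)
    simp only [form_sub_left, form_sub_right, form_smul_left, form_smul_right,
      S.form_comm v u] at h0
    nlinarith [S.form_self_pos hv]
  let N : ℤ := 2 * ∑ i, S.d i
  refine (Set.Finite.pi' fun k => Set.finite_Icc (-(N * S.form (y k) (y k)))
    (N * S.form (y k) (y k))).subset fun v hv k => ?_
  obtain ⟨D, hD, ⟨i, hi⟩, hQ, -⟩ := IsRoot.norm S hv
  have hN : S.form v v ≤ N := by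
    rw [hQ, hi]
    have := single_le_sum (fun l _ => (S.dpos l).le) (mem_univ i)
    simp only [N]
    omega
  have h1 := hcs v (y k)
  rw [hy, mul_pow] at h1
  have h2 : v k ^ 2 ≤ N * S.form (y k) (y k) := by
    have hd2 : 1 ≤ A.det ^ 2 := pow_two_pos_of_ne_zero hdet
    calc v k ^ 2 ≤ v k ^ 2 * A.det ^ 2 := le_mul_of_one_le_right (sq_nonneg _) hd2
      _ ≤ _ := h1.trans (mul_le_mul_of_nonneg_right hN (S.form_self_nonneg _))
  have h3 : v k ≤ v k ^ 2 := Int.le_self_sq _
  have h4 : -v k ≤ v k ^ 2 := by simpa using Int.le_self_sq (-v k)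
  exact Set.mem_Icc.2 ⟨by omega, by omega⟩

end SymGCM

end FA.Dynkin
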