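import Fermat.Agent.Dynkin.Types

/-!
# Positive definiteness and connectedness of the types

A symmetrisable generalised Cartan matrix with a strictly positive vector sent to a strictly
positive vector is positive definite. Each type has such a vector.
-/

set_option autoImplicit false
set_option linter.unnecessarySeqFocus false

namespace FA.Dynkin

open Finset DynkinType

variable {ι : Type*} [Fintype ι]

/-- A strictly positive witness vector forces positive definiteness. -/
theorem pos_of_witness {C : Matrix ι ι ℤ} (h : IsGCM C) (d : ι → ℤ) (hd : ∀ i, 0 < d i)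
    (hsymm : ∀ i j, C i j * d j = C j i * d i) (v : ι → ℤ) (hv : ∀ i, 0 < v i)
    (hvC : ∀ j, 0 < ∑ i, v i * C i j) (x : ι → ℚ) (hx : x ≠ 0) :
    0 < ∑ i, ∑ j, x i * (C i j : ℚ) * (d j : ℚ) * x j := by
  classical
  set S : ι → ι → ℚ := fun i j => (C i j : ℚ) * d j with hS
  have hSs : ∀ i j, S i j = S j i := fun i j => by
    simp only [hS]; exact_mod_cast hsymm i j
  have hv' : ∀ i, (0 : ℚ) < v i := fun i => by exact_mod_cast hv i
  let t : ι → ℚ := fun i => x i / v i
  have hxt : ∀ i, x i = v i * t i := fun i => by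
    simp only [t]; field_simp [(hv' i).ne']
  have key : ∑ i, ∑ j, x i * (C i j : ℚ) * (d j : ℚ) * x j =
      ∑ j, ((∑ i, (v i : ℚ) * S i j) * v j * t j ^ 2) +
        ∑ i, ∑ j, (-(1 / 2)) * ((v i : ℚ) * S i j * v j) * (t i - t j) ^ 2 := by
    have h1 : ∑ i, ∑ j, (v i : ℚ) * S i j * v j * t i ^ 2 =
        ∑ i, ∑ j, (v i : ℚ) * S i j * v j * t j ^ 2 := by
      rw [Finset.sum_comm]
      exact sum_congr rfl fun i _ => sum_congr rfl fun j _ => by rw [hSs j i]; ring
    have h2 : ∑ j, ((∑ i, (v i : ℚ) * S i j) * v j * t j ^ 2) =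
        ∑ i, ∑ j, (v i : ℚ) * S i j * v j * t j ^ 2 := by
      rw [Finset.sum_comm]
      exact sum_congr rfl fun j _ => by rw [sum_mul, sum_mul]
    have h3 : ∀ i j, (-(1 / 2)) * ((v i : ℚ) * S i j * v j) * (t i - t j) ^ 2 =
        (-(1 / 2)) * ((v i : ℚ) * S i j * v j * t i ^ 2) +
          (-(1 / 2)) * ((v i : ℚ) * S i j * v j * t j ^ 2) +
          x i * (C i j : ℚ) * (d j : ℚ) * x j := fun i j => by
      rw [hxt i, hxt j]; simp only [hS]; ring
    simp only [h3, sum_add_distrib, ← mul_sum, h1, h2]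
    ring
  rw [key]
  refine add_pos_of_pos_of_nonneg (sum_pos' (fun j _ => ?_) ?_) (sum_nonneg fun i _ =>
    sum_nonneg fun j _ => ?_)
  · have hcol : (0 : ℚ) < ∑ i, (v i : ℚ) * S i j := by
      have : ((0 : ℤ) : ℚ) < ((∑ i, v i * C i j : ℤ) : ℚ) := Int.cast_lt.2 (hvC j)
      push_cast at this
      simp only [hS, ← mul_assoc, ← sum_mul]
      exact mul_pos this (by exact_mod_cast hd j)
    exact mul_nonneg (mul_nonneg hcol.le (hv' j).le) (sq_nonneg _)
  · obtain ⟨j, hj⟩ := Function.ne_iff.1 hx
    refine ⟨j, mem_univ _, mul_pos (mul_pos ?_ (hv' j)) ?_⟩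
    · have : ((0 : ℤ) : ℚ) < ((∑ i, v i * C i j : ℤ) : ℚ) := Int.cast_lt.2 (hvC j)
      push_cast at this
      simp only [hS, ← mul_assoc, ← sum_mul]
      exact mul_pos this (by exact_mod_cast hd j)
    · exact pow_two_pos_of_ne_zero (div_ne_zero hj (hv' j).ne')
  · rcases eq_or_ne i j with rfl | hij
    · simp
    · have h0 : (C i j : ℚ) ≤ 0 := by exact_mod_cast h.nonpos i j hij
      have h1 : S i j ≤ 0 := mul_nonpos_of_nonpos_of_nonneg h0 (by exact_mod_cast (hd j).le)
      have h2 : (v i : ℚ) * S i j * v j ≤ 0 :=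
        mul_nonpos_of_nonpos_of_nonneg (mul_nonpos_of_nonneg_of_nonpos (hv' i).le h1) (hv' j).le
      exact mul_nonneg (by linarith) (sq_nonneg _)

/-- Reachability from a root along decreasing labels gives connectedness. -/
lemma connected_of_parent {C : Matrix ι ι ℤ} (r : ι) (f : ι → ℕ)
    (h : ∀ i, i ≠ r → ∃ j, f j < f i ∧ C i j ≠ 0) : (graph C).Connected := by
  have key : ∀ n i, f i = n → (graph C).Reachable i r := by
    intro n
    induction n using Nat.strong_induction_on with
    | _ n ih =>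
      intro i hi
      rcases eq_or_ne i r with rfl | hir
      · exact SimpleGraph.Reachable.refl i
      · obtain ⟨j, hj, hne⟩ := h i hir
        refine SimpleGraph.Reachable.trans (SimpleGraph.Adj.reachable ?_) (ih _ (hi ▸ hj) j rfl)
        rw [graph, SimpleGraph.fromRel_adj]
        exact ⟨fun e => by simp [e] at hj, Or.inl hne⟩
  have : Nonempty ι := ⟨r⟩
  exact (SimpleGraph.connected_iff _).2
    ⟨fun i j => (key _ i rfl).trans (key _ j rfl).symm, this⟩

/-- A symmetriser of a type. -/
def DynkinType.symmetriser : (t : DynkinType) → Fin t.rank → ℤ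
  | .A _ => fun _ => 1
  | .B n => fun i => if (i : ℕ) + 1 = n then 1 else 2
  | .C n => fun i => if (i : ℕ) + 1 = n then 2 else 1
  | .D _ => fun _ => 1
  | .E6 => fun _ => 1
  | .E7 => fun _ => 1
  | .E8 => fun _ => 1
  | .F4 => ![2, 2, 1, 1]
  | .G2 => ![3, 1]

/-- A positive vector with positive image, a multiple of the sum of the positive roots. -/
def DynkinType.witness : (t : DynkinType) → Fin t.rank → ℤ
  | .A n => fun i => ((i : ℤ) + 1) * ((n : ℤ) - i)
  | .B n => fun i => ((i : ℤ) + 1) * (2 * n - 1 - i)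
  | .C n => fun i => if (i : ℕ) + 1 = n then (n : ℤ) * (n + 1) else 2 * ((i : ℤ) + 1) * (2 * n - i)
  | .D n => fun i => if n ≤ (i : ℕ) + 2 then (n : ℤ) * (n - 1)
      else 2 * ((i : ℤ) + 1) * (2 * n - 2 - i)
  | .E6 => ![16, 22, 30, 42, 30, 16]
  | .E7 => ![34, 49, 66, 96, 75, 52, 27]
  | .E8 => ![92, 136, 182, 270, 220, 168, 114, 58]
  | .F4 => ![16, 30, 42, 22]
  | .G2 => ![6, 10]

lemma DynkinType.isGCM (t : DynkinType) : IsGCM t.matrix := by
  cases t with
  | A n =>
    refine ⟨fun i => by simp [matrix, CartanMatrix.A],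
      CartanMatrix.A_apply_le_zero_of_ne n, fun i j h => ?_⟩
    simp [matrix, CartanMatrix.A, Fin.ext_iff] at h ⊢
    omega
  | B n =>
    refine ⟨CartanMatrix.B_diag n, CartanMatrix.B_off_diag_nonpos n, fun i j h => ?_⟩
    simp [matrix, CartanMatrix.B, Fin.ext_iff] at h ⊢
    split_ifs at h ⊢ <;> omega
  | C n =>
    refine ⟨CartanMatrix.C_diag n, CartanMatrix.C_off_diag_nonpos n, fun i j h => ?_⟩
    simp [matrix, CartanMatrix.C, Fin.ext_iff] at h ⊢
    split_ifs at h ⊢ <;> omega
  | D n =>
    refine ⟨CartanMatrix.D_diag n, CartanMatrix.D_off_diag_nonpos n, fun i j h => ?_⟩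
    simp [matrix, CartanMatrix.D, Fin.ext_iff] at h ⊢
    omega
  | E6 => exact ⟨CartanMatrix.E₆_diag, CartanMatrix.E₆_off_diag_nonpos,
      show ∀ i j : Fin 6, CartanMatrix.E₆ i j = 0 → CartanMatrix.E₆ j i = 0 by decide⟩
  | E7 => exact ⟨CartanMatrix.E₇_diag, CartanMatrix.E₇_off_diag_nonpos,
      show ∀ i j : Fin 7, CartanMatrix.E₇ i j = 0 → CartanMatrix.E₇ j i = 0 by decide⟩
  | E8 => exact ⟨CartanMatrix.E₈_diag, CartanMatrix.E₈_off_diag_nonpos,
      show ∀ i j : Fin 8, CartanMatrix.E₈ i j = 0 → CartanMatrix.E₈ j i = 0 by decide⟩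
  | F4 => exact ⟨CartanMatrix.F₄_diag, CartanMatrix.F₄_off_diag_nonpos,
      show ∀ i j : Fin 4, CartanMatrix.F₄ i j = 0 → CartanMatrix.F₄ j i = 0 by decide⟩
  | G2 => exact ⟨CartanMatrix.G₂_diag, CartanMatrix.G₂_off_diag_nonpos,
      show ∀ i j : Fin 2, CartanMatrix.G₂ i j = 0 → CartanMatrix.G₂ j i = 0 by decide⟩

lemma DynkinType.symmetriser_pos (t : DynkinType) (i : Fin t.rank) : 0 < t.symmetriser i := by
  cases t <;> first
    | (revert i; decide)
    | (simp only [symmetriser]; split_ifs <;> omega)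
    | (simp [symmetriser])

lemma DynkinType.symmetriser_symm (t : DynkinType) (ht : t.Valid) (i j : Fin t.rank) :
    t.matrix i j * t.symmetriser j = t.matrix j i * t.symmetriser i := by
  cases t with
  | A n =>
    simp [matrix, symmetriser, CartanMatrix.A, Fin.ext_iff]
    split_ifs <;> omega
  | B n =>
    have := i.isLt; have := j.isLt
    simp only [rank, Valid] at *
    simp [matrix, symmetriser, CartanMatrix.B, Fin.ext_iff]
    split_ifs <;> omega
  | C n =>
    have := i.isLt; have := j.isLt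
    simp only [rank, Valid] at *
    simp [matrix, symmetriser, CartanMatrix.C, Fin.ext_iff]
    split_ifs <;> omega
  | D n =>
    have := CartanMatrix.D_transpose n
    simpa [matrix, symmetriser] using (congrFun (congrFun this i) j).symm
  | _ => revert i j; decide

lemma sum_at (n k : ℕ) (g : ℕ → ℤ) :
    ∑ i : Fin n, (if (i : ℕ) = k then g i else 0) = if k < n then g k else 0 := by
  rw [Fin.sum_univ_eq_sum_range (fun i => if i = k then g i else 0), Finset.sum_ite_eq']
  simp

lemma DynkinType.witness_pos (t : DynkinType) (ht : t.Valid) (i : Fin t.rank) :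
    0 < t.witness i := by
  cases t with
  | A n =>
    have := i.isLt; simp only [rank, witness] at *
    exact mul_pos (by omega) (by omega)
  | B n =>
    have := i.isLt; simp only [rank, witness] at *
    exact mul_pos (by omega) (by omega)
  | C n =>
    have := i.isLt; simp only [rank, witness, Valid] at *
    split_ifs
    · exact mul_pos (by omega) (by omega)
    · exact mul_pos (by omega) (by omega)
  | D n =>
    have := i.isLt; simp only [rank, witness, Valid] at *
    split_ifs
    · exact mul_pos (by omega) (by omega)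
    · exact mul_pos (by omega) (by omega)
  | _ => revert i; decide

lemma witness_image_A {n : ℕ} (j : Fin n) :
    0 < ∑ i, DynkinType.witness (.A n) i * CartanMatrix.A n i j := by
  let w : ℕ → ℤ := fun i => ((i : ℤ) + 1) * ((n : ℤ) - i)
  have hj := j.isLt
  have hdec : ∀ i : Fin n, DynkinType.witness (.A n) i * CartanMatrix.A n i j =
      (if (i : ℕ) = (j : ℕ) then w i * 2 else 0) +
      (if (i : ℕ) = (j : ℕ) + 1 then w i * (-1) else 0) +
      (if (i : ℕ) = (if (j : ℕ) = 0 then n else j - 1) then w i * (-1) else 0) := fun i => by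
    have := i.isLt
    simp [witness, CartanMatrix.A, Fin.ext_iff, w]
    split_ifs <;> first | omega | ring_nf
  show 0 < ∑ i : Fin n, _
  rw [Finset.sum_congr rfl fun i _ => hdec i, sum_add_distrib, sum_add_distrib,
    sum_at n _ (fun i => w i * 2), sum_at n _ (fun i => w i * (-1)),
    sum_at n _ (fun i => w i * (-1))]
  rcases Nat.eq_zero_or_pos (j : ℕ) with h0 | h0
  · simp only [h0, if_true, lt_irrefl, if_false, w]
    split_ifs <;> push_cast <;> nlinarith
  · obtain ⟨k, hk⟩ : ∃ k : ℕ, (j : ℕ) = k + 1 := ⟨(j : ℕ) - 1, by omega⟩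
    simp only [hk, if_neg (Nat.succ_ne_zero k), Nat.add_sub_cancel, w]
    rcases eq_or_ne (k + 2) n with hn | hn
    · subst hn
      split_ifs <;> first | omega | (push_cast <;> nlinarith)
    · split_ifs <;> first | omega | (push_cast <;> nlinarith)

lemma witness_image_B {n : ℕ} (hn : 2 ≤ n) (j : Fin n) :
    0 < ∑ i, DynkinType.witness (.B n) i * CartanMatrix.B n i j := by
  let w : ℕ → ℤ := fun i => ((i : ℤ) + 1) * (2 * n - 1 - i)
  have hj := j.isLt
  have hdec : ∀ i : Fin n, DynkinType.witness (.B n) i * CartanMatrix.B n i j =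
      (if (i : ℕ) = (j : ℕ) then w i * 2 else 0) +
      (if (i : ℕ) = (j : ℕ) + 1 then w i * (-1) else 0) +
      (if (i : ℕ) = (if (j : ℕ) = 0 then n else j - 1) then
        w i * (if (j : ℕ) + 1 = n then -2 else -1) else 0) := fun i => by
    have := i.isLt
    simp [witness, CartanMatrix.B, Fin.ext_iff, w]
    split_ifs <;> first | omega | ring_nf
  show 0 < ∑ i : Fin n, _
  rw [Finset.sum_congr rfl fun i _ => hdec i, sum_add_distrib, sum_add_distrib,
    sum_at n _ (fun i => w i * 2), sum_at n _ (fun i => w i * (-1)),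
    sum_at n _ (fun i => w i * (if (j : ℕ) + 1 = n then -2 else -1))]
  rcases Nat.eq_zero_or_pos (j : ℕ) with h0 | h0
  · simp only [h0, if_true, lt_irrefl, if_false, w]
    split_ifs <;> push_cast <;> nlinarith
  · obtain ⟨k, hk⟩ : ∃ k : ℕ, (j : ℕ) = k + 1 := ⟨(j : ℕ) - 1, by omega⟩
    simp only [hk, if_neg (Nat.succ_ne_zero k), Nat.add_sub_cancel, w]
    rcases eq_or_ne (k + 2) n with hn | hn
    · subst hn
      split_ifs <;> first | omega | (push_cast <;> nlinarith)
    · split_ifs <;> first | omega | (push_cast <;> nlinarith)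

lemma witness_image_C {n : ℕ} (hn : 3 ≤ n) (j : Fin n) :
    0 < ∑ i, DynkinType.witness (.C n) i * CartanMatrix.C n i j := by
  let w : ℕ → ℤ := fun i =>
    if i + 1 = n then (n : ℤ) * (n + 1) else 2 * ((i : ℤ) + 1) * (2 * n - i)
  have hj := j.isLt
  have hdec : ∀ i : Fin n, DynkinType.witness (.C n) i * CartanMatrix.C n i j =
      (if (i : ℕ) = (j : ℕ) then w i * 2 else 0) +
      (if (i : ℕ) = (j : ℕ) + 1 then w i * (if (j : ℕ) + 2 = n then -2 else -1) else 0) +
      (if (i : ℕ) = (if (j : ℕ) = 0 then n else j - 1) then w i * (-1) else 0) := fun i => by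
    have := i.isLt
    simp [witness, CartanMatrix.C, Fin.ext_iff, w]
    split_ifs <;> first | omega | ring_nf
  show 0 < ∑ i : Fin n, _
  rw [Finset.sum_congr rfl fun i _ => hdec i, sum_add_distrib, sum_add_distrib,
    sum_at n _ (fun i => w i * 2),
    sum_at n _ (fun i => w i * (if (j : ℕ) + 2 = n then -2 else -1)),
    sum_at n _ (fun i => w i * (-1))]
  rcases Nat.eq_zero_or_pos (j : ℕ) with h0 | h0
  · simp only [h0, if_true, lt_irrefl, if_false, w]
    split_ifs <;> first | omega | (push_cast <;> nlinarith)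
  · obtain ⟨k, hk⟩ : ∃ k : ℕ, (j : ℕ) = k + 1 := ⟨(j : ℕ) - 1, by omega⟩
    simp only [hk, if_neg (Nat.succ_ne_zero k), Nat.add_sub_cancel, w]
    rcases (by omega : n = k + 2 ∨ n = k + 3 ∨ k + 4 ≤ n) with hk' | hk' | hk'
    · subst hk'
      split_ifs <;> first | omega | (push_cast <;> nlinarith)
    · subst hk'
      split_ifs <;> first | omega | (push_cast <;> nlinarith)
    · split_ifs <;> first | omega | (push_cast <;> nlinarith)

lemma witness_image_D {n : ℕ} (hn : 4 ≤ n) (j : Fin n) :
    0 < ∑ i, DynkinType.witness (.D n) i * CartanMatrix.D n i j := by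
  let w : ℕ → ℤ := fun i =>
    if n ≤ i + 2 then (n : ℤ) * (n - 1) else 2 * ((i : ℤ) + 1) * (2 * n - 2 - i)
  have hj := j.isLt
  have hdec : ∀ i : Fin n, DynkinType.witness (.D n) i * CartanMatrix.D n i j =
      (if (i : ℕ) = (j : ℕ) then w i * 2 else 0) +
      (if (i : ℕ) = (if n ≤ (j : ℕ) + 2 then n else (j : ℕ) + 1) then w i * (-1) else 0) +
      (if (i : ℕ) = (if (j : ℕ) + 1 = n then n - 3 else if (j : ℕ) = 0 then n else j - 1) then
        w i * (-1) else 0) +
      (if (i : ℕ) = (if (j : ℕ) + 3 = n then n - 1 else n) then w i * (-1) else 0) := fun i => by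
    have := i.isLt
    simp [witness, CartanMatrix.D, Fin.ext_iff, w]
    split_ifs <;> first | omega | ring_nf
  show 0 < ∑ i : Fin n, _
  rw [Finset.sum_congr rfl fun i _ => hdec i, sum_add_distrib, sum_add_distrib, sum_add_distrib,
    sum_at n _ (fun i => w i * 2), sum_at n _ (fun i => w i * (-1)),
    sum_at n _ (fun i => w i * (-1)), sum_at n _ (fun i => w i * (-1))]
  rcases Nat.eq_zero_or_pos (j : ℕ) with h0 | h0
  · simp only [h0, if_true, lt_irrefl, if_false, w]
    split_ifs <;> first | omega | (push_cast <;> nlinarith)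
  · obtain ⟨k, hk⟩ : ∃ k : ℕ, (j : ℕ) = k + 1 := ⟨(j : ℕ) - 1, by omega⟩
    simp only [hk, if_neg (Nat.succ_ne_zero k), Nat.add_sub_cancel, w]
    rcases (by omega : n = k + 2 ∨ n = k + 3 ∨ n = k + 4 ∨ k + 5 ≤ n) with hk' | hk' | hk' | hk'
    · obtain ⟨m, rfl⟩ : ∃ m, k = m + 1 := ⟨k - 1, by omega⟩
      subst hk'
      simp only [Nat.add_sub_cancel, show m + 1 + 2 - 3 = m by omega]
      split_ifs <;> first | omega | (push_cast <;> nlinarith)
    · obtain ⟨m, rfl⟩ : ∃ m, k = m + 1 := ⟨k - 1, by omega⟩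
      subst hk'
      simp only [show m + 1 + 3 - 1 = m + 3 by omega, show m + 1 + 3 - 3 = m + 1 by omega]
      split_ifs <;> first | omega | (push_cast <;> nlinarith)
    · subst hk'
      simp only [show k + 4 - 1 = k + 3 by omega, show k + 4 - 3 = k + 1 by omega]
      split_ifs <;> first | omega | (push_cast <;> nlinarith)
    · split_ifs <;> first | omega | (push_cast <;> nlinarith)

lemma DynkinType.witness_image (t : DynkinType) (ht : t.Valid) (j : Fin t.rank) :
    0 < ∑ i, t.witness i * t.matrix i j := by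
  cases t with
  | A n => exact witness_image_A j
  | B n => exact witness_image_B ht j
  | C n => exact witness_image_C ht j
  | D n => exact witness_image_D ht j
  | _ => revert j; decide

/-- The matrix of a type is positive definite after symmetrisation. -/
theorem DynkinType.posDef (t : DynkinType) (ht : t.Valid) (x : Fin t.rank → ℚ) (hx : x ≠ 0) :
    0 < ∑ i, ∑ j, x i * (t.matrix i j : ℚ) * (t.symmetriser j : ℚ) * x j :=
  pos_of_witness t.isGCM _ t.symmetriser_pos (t.symmetriser_symm ht) _ (t.witness_pos ht)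
    (t.witness_image ht) x hx

/-- The matrix of a type is of finite type. -/
theorem DynkinType.isFiniteType (t : DynkinType) (ht : t.Valid) : IsFiniteType t.matrix :=
  isFiniteType_of_pos t.isGCM _ t.symmetriser_pos (t.symmetriser_symm ht) (t.posDef ht)

/-- The diagram of a type is connected. -/
theorem DynkinType.connected (t : DynkinType) (ht : t.Valid) : (graph t.matrix).Connected := by
  cases t with
  | A n =>
    have h1 : 1 ≤ n := ht
    refine connected_of_parent (C := CartanMatrix.A n) (⟨0, by omega⟩ : Fin n) (fun i => (i : ℕ))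
      fun i hi => ⟨⟨i - 1, by omega⟩, ?_, ?_⟩
    all_goals simp [CartanMatrix.A, Fin.ext_iff] at hi ⊢
    all_goals (try split_ifs)
    all_goals first | exact not_false | omega
  | B n =>
    have h1 : 2 ≤ n := ht
    refine connected_of_parent (C := CartanMatrix.B n) (⟨0, by omega⟩ : Fin n) (fun i => (i : ℕ))
      fun i hi => ⟨⟨i - 1, by omega⟩, ?_, ?_⟩
    all_goals simp [CartanMatrix.B, Fin.ext_iff] at hi ⊢
    all_goals (try split_ifs)
    all_goals first | exact not_false | omega
  | C n =>
    have h1 : 3 ≤ n := ht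
    refine connected_of_parent (C := CartanMatrix.C n) (⟨0, by omega⟩ : Fin n) (fun i => (i : ℕ))
      fun i hi => ⟨⟨i - 1, by omega⟩, ?_, ?_⟩
    all_goals simp [CartanMatrix.C, Fin.ext_iff] at hi ⊢
    all_goals (try split_ifs)
    all_goals first | exact not_false | omega
  | D n =>
    have h1 : 4 ≤ n := ht
    refine connected_of_parent (C := CartanMatrix.D n) (⟨0, by omega⟩ : Fin n) (fun i => (i : ℕ))
      fun i hi => ⟨⟨if (i : ℕ) + 1 = n then n - 3 else i - 1, by split_ifs <;> omega⟩, ?_, ?_⟩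
    all_goals simp [CartanMatrix.D, Fin.ext_iff] at hi ⊢
    all_goals (try split_ifs)
    all_goals first | exact not_false | omega
  | E6 => exact connected_of_parent (C := CartanMatrix.E₆) 0 ![0, 3, 1, 2, 3, 4] (by decide)
  | E7 => exact connected_of_parent (C := CartanMatrix.E₇) 0 ![0, 3, 1, 2, 3, 4, 5] (by decide)
  | E8 => exact connected_of_parent (C := CartanMatrix.E₈) 0 ![0, 3, 1, 2, 3, 4, 5, 6] (by decide)
  | F4 => exact connected_of_parent (C := CartanMatrix.F₄) 0 ![0, 1, 2, 3] (by decide)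
  | G2 => exact connected_of_parent (C := CartanMatrix.G₂) 0 ![0, 1] (by decide)

end FA.Dynkin
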