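import Fermat.Agent.Dynkin.RootSystem
import Fermat.Agent.Dynkin.Positive
import Fermat.Agent.Dynkin.Distinct
import Fermat.Agent.CartanClassification.Main

/-!
# The A–G classification
-/

set_option autoImplicit false
set_option linter.unusedSectionVars false

noncomputable section

namespace FA.Dynkin

open Module LieAlgebra LieAlgebra.IsKilling DynkinType RootPairing

attribute [local instance 100] LieRing.ofAssociativeRing

lemma DynkinType.dual_dual {t : DynkinType} (ht : t.Valid) : t.dual.dual = t := by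
  cases t with
  | B n =>
    simp only [dual]
    split_ifs with hn
    · simp [dual, hn]
    · simp [dual]
  | C n =>
    simp only [Valid] at ht
    simp only [dual]
    rw [if_neg (by omega)]
  | _ => rfl

lemma Matches.isFiniteType {ι : Type*} [Fintype ι] {C : Matrix ι ι ℤ} {t : DynkinType}
    (h : Matches t C) (ht : t.Valid) : IsFiniteType C := by
  obtain ⟨σ, hσ⟩ := h
  have := (t.isFiniteType ht).submatrix σ.symm σ.symm.injective
  convert this using 1
  ext a b
  rw [Matrix.submatrix_apply, ← hσ, σ.apply_symm_apply, σ.apply_symm_apply]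

/-- Every type has an irreducible root system. -/
theorem exists_rootSystem_of_type (K : Type*) [Field K] [CharZero K] (t : DynkinType)
    (ht : t.Valid) :
    ∃ (Φ : Type) (_ : Finite Φ) (P : RootPairing Φ K (Fin t.rank → K) (Fin t.rank → K))
      (_ : P.IsRootSystem) (_ : P.IsCrystallographic) (_ : P.IsReduced) (_ : P.IsIrreducible)
      (b : P.Base), Matches t b.cartanMatrix := by
  let S : SymGCM (Fin t.rank) :=
    ⟨t.matrix, t.symmetriser, t.isGCM, t.symmetriser_pos, t.symmetriser_symm ht, t.posDef ht⟩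
  exact ⟨S.RootIdx, inferInstance, S.rootPairing K, inferInstance, inferInstance, inferInstance,
    S.isIrreducible K (t.connected ht), S.base K, S.simpleEquiv K, S.cartanMatrix_base K⟩

/-- The Cartan matrix of an irreducible root system matches exactly one type. -/
theorem existsUnique_type {ι R M N : Type*} [Finite ι] [Field R] [CharZero R]
    [AddCommGroup M] [Module R M] [AddCommGroup N] [Module R N] {P : RootPairing ι R M N}
    [P.IsCrystallographic] [P.IsRootSystem] [P.IsReduced] [P.IsIrreducible] (b : P.Base) :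
    ∃! t : DynkinType, t.Valid ∧ Matches t b.cartanMatrix := by
  classical
  have : Nontrivial M := IsIrreducible.nontrivial P
  have : Nonempty ι := by
    by_contra h0
    rw [not_nonempty_iff] at h0
    have := IsRootSystem.span_root_eq_top (P := P)
    rw [Set.range_eq_empty, Submodule.span_empty] at this
    exact bot_ne_top this
  have : Nonempty b.support := b.support_nonempty.to_subtype
  obtain ⟨t, ht, hm⟩ :=
    exists_type_of_connected _ (isFiniteType_cartanMatrix b) (connected_cartanMatrix b)
  exact ⟨t, ⟨ht, hm⟩, fun t' h' => Matches.unique h'.1 ht h'.2 hm⟩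

section Lie

variable (K : Type*) [Field K] [CharZero K] [IsAlgClosed K]

lemma isSimple_of_lieEquiv {L L' : Type*} [LieRing L] [LieAlgebra K L] [LieRing L']
    [LieAlgebra K L'] (e : L ≃ₗ⁅K⁆ L') [LieAlgebra.IsSimple K L] : LieAlgebra.IsSimple K L' where
  eq_bot_or_eq_top I := by
    rcases LieAlgebra.IsSimple.eq_bot_or_eq_top (R := K) (I.comap e.toLieHom) with h | h
    · refine Or.inl (eq_bot_iff.2 fun x hx => ?_)
      have h1 : e.symm x ∈ I.comap e.toLieHom := by simpa [LieIdeal.mem_comap] using hx
      rw [h, LieSubmodule.mem_bot] at h1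
      rw [LieSubmodule.mem_bot, ← e.apply_symm_apply x, h1]
      exact map_zero e.toLieHom
    · refine Or.inr (eq_top_iff.2 fun x _ => ?_)
      have h1 : e.symm x ∈ I.comap e.toLieHom := h ▸ LieSubmodule.mem_top _
      simpa [LieIdeal.mem_comap] using h1
  non_abelian h := LieAlgebra.IsSimple.non_abelian K (L := L)
    ⟨fun x y => e.injective
      ((e.toLieHom.map_lie x y).trans ((h.trivial _ _).trans (map_zero e.toLieHom).symm))⟩

/-- The algebra of a type is Geck's algebra of a root system of the dual type. -/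
theorem exists_geck_of_type (t : DynkinType) (ht : t.Valid) :
    ∃ (Φ : Type) (_ : Fintype Φ) (_ : DecidableEq Φ)
      (P : RootPairing Φ K (Fin t.dual.rank → K) (Fin t.dual.rank → K)) (_ : P.IsRootSystem)
      (_ : P.IsCrystallographic) (_ : P.IsReduced) (_ : P.IsIrreducible) (b : P.Base),
      Matches t.dual b.cartanMatrix ∧
        Nonempty (Matrix.ToLieAlgebra K t.matrix ≃ₗ⁅K⁆ GeckConstruction.lieAlgebra b) := by
  classical
  obtain ⟨Φ, hfin, P, h1, h2, h3, h4, b, hb⟩ :=
    exists_rootSystem_of_type K t.dual (valid_dual ht)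
  have := Fintype.ofFinite Φ
  refine ⟨Φ, inferInstance, inferInstance, P, h1, h2, h3, h4, b, hb, ?_⟩
  obtain ⟨e, -⟩ := FA.SerreTheorem.exists_geck_equiv b
  have hb' := hb.transpose
  rw [t.dual_dual ht] at hb'
  obtain ⟨σ, hσ⟩ := hb'
  exact ⟨(FA.SerreTheorem.sreindex K σ hσ).trans e⟩

/-- The algebra of a type is finite-dimensional and simple. -/
theorem finiteDimensional_isSimple (t : DynkinType) (ht : t.Valid) :
    FiniteDimensional K (Matrix.ToLieAlgebra K t.matrix) ∧
      LieAlgebra.IsSimple K (Matrix.ToLieAlgebra K t.matrix) := by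
  obtain ⟨Φ, _, _, P, _, _, _, _, b, -, ⟨e⟩⟩ := exists_geck_of_type K t ht
  have := FA.CartanClassification.isSimple_geck b
  exact ⟨e.symm.toLinearEquiv.finiteDimensional, isSimple_of_lieEquiv K e.symm⟩

/-- Different types have non-isomorphic algebras. -/
theorem eq_of_lieEquiv {t t' : DynkinType} (ht : t.Valid) (ht' : t'.Valid)
    (φ : Matrix.ToLieAlgebra K t.matrix ≃ₗ⁅K⁆ Matrix.ToLieAlgebra K t'.matrix) : t = t' := by
  classical
  obtain ⟨Φ, _, _, P, _, _, _, _, b, hb, ⟨e⟩⟩ := exists_geck_of_type K t ht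
  obtain ⟨Φ', _, _, P', _, _, _, _, b', hb', ⟨e'⟩⟩ := exists_geck_of_type K t' ht'
  have := FA.CartanClassification.isSimple_geck b
  have := FA.CartanClassification.isSimple_geck b'
  obtain ⟨c⟩ := (rootSystem (GeckConstruction.cartanSubalgebra' b)).nonempty_base
  obtain ⟨c'⟩ := (rootSystem (GeckConstruction.cartanSubalgebra' b')).nonempty_base
  obtain ⟨σ₁, hσ₁⟩ := FA.CartanClassification.exists_equiv_of_rootSystem_equiv
    (GeckConstruction.equivRootSystem b) b c
  obtain ⟨σ₂, hσ₂⟩ := FA.CartanClassification.exists_equiv_of_rootSystem_equiv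
    (GeckConstruction.equivRootSystem b') b' c'
  obtain ⟨σ₃, hσ₃⟩ := FA.CartanClassification.exists_equiv_of_lieEquiv
    ((e.symm.trans φ).trans e') c c'
  have h : Matches t.dual b'.cartanMatrix := by
    refine hb.of_equiv ((σ₁.trans σ₃).trans σ₂.symm) fun i j => ?_
    rw [← hσ₂]
    simp only [Equiv.trans_apply, Equiv.apply_symm_apply]
    rw [hσ₃, hσ₁]
  rw [← t.dual_dual ht, Matches.unique (valid_dual ht) (valid_dual ht') h hb', t'.dual_dual ht']

/-- A simple Lie algebra is the algebra of exactly one type. -/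
theorem existsUnique_type_of_isSimple (L : Type*) [LieRing L] [LieAlgebra K L]
    [FiniteDimensional K L] [LieAlgebra.IsSimple K L] :
    ∃! t : DynkinType, t.Valid ∧ Nonempty (L ≃ₗ⁅K⁆ Matrix.ToLieAlgebra K t.matrix) := by
  classical
  obtain ⟨x, hx⟩ := LieAlgebra.exists_isCartanSubalgebra_engel K L
  obtain ⟨b⟩ := (rootSystem (LieSubalgebra.engel K x)).nonempty_base
  obtain ⟨t, ⟨ht, hm⟩, -⟩ := existsUnique_type b
  obtain ⟨σ, hσ⟩ := hm.transpose
  let e : Matrix.ToLieAlgebra K t.dual.matrix ≃ₗ⁅K⁆ L :=
    (FA.SerreTheorem.sreindex K σ hσ).trans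
      (FA.SerreTheorem.serreEquiv b (FA.SerreTheorem.stdTriples b))
  refine ⟨t.dual, ⟨valid_dual ht, ⟨e.symm⟩⟩, fun t' ⟨ht', ⟨e'⟩⟩ => ?_⟩
  exact eq_of_lieEquiv K ht' (valid_dual ht) (e'.symm.trans e.symm)

end Lie

end FA.Dynkin
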