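import Fermat.Agent.Dynkin.Lattice
import Fermat.Agent.Dynkin.Classify
import Mathlib.LinearAlgebra.RootSystem.BaseExists
import Mathlib.LinearAlgebra.RootSystem.Irreducible

/-!
# Every symmetrisable positive definite Cartan matrix comes from a root system
-/

set_option autoImplicit false

noncomputable section

namespace FA.Dynkin

open Finset Module

variable {ι : Type*} [Fintype ι] [DecidableEq ι] (S : SymGCM ι)
variable (K : Type*) [Field K] [CharZero K]

namespace SymGCM

/-- The type of roots. -/
abbrev RootIdx : Type _ := {v : ι → ℤ // S.IsRoot v}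

instance : Finite S.RootIdx := S.finite_roots.to_subtype

/-- The standard pairing. -/
def dot : (ι → K) →ₗ[K] (ι → K) →ₗ[K] K :=
  LinearMap.mk₂ K (fun u w => ∑ i, u i * w i)
    (fun u u' w => by simp [add_mul, sum_add_distrib])
    (fun c u w => by simp [mul_sum, mul_assoc])
    (fun u w w' => by simp [mul_add, sum_add_distrib])
    (fun c u w => by simp [mul_sum, mul_left_comm])

omit [CharZero K] in
lemma dot_apply (u w : ι → K) : (dot K) u w = ∑ i, u i * w i := rfl

instance : (dot (ι := ι) K).IsPerfPair := by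
  have h1 : Function.Injective (dot (ι := ι) K) := fun u u' h => funext fun i => by
    simpa [dot_apply, Pi.single_apply] using LinearMap.congr_fun h (Pi.single i 1)
  have h2 : Function.Injective (dot (ι := ι) K).flip := fun u u' h => funext fun i => by
    simpa [dot_apply, Pi.single_apply] using LinearMap.congr_fun h (Pi.single i 1)
  exact LinearMap.IsPerfPair.of_injective h1 h2

/-- A root as a vector over `K`. -/
def rootVec (v : ι → ℤ) : ι → K := fun i => (v i : K)

/-- The coroot of a root. -/
def corootVec (v : ι → ℤ) : ι → K := fun l =>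
  2 * ((∑ k, S.C l k * S.d k * v k : ℤ) : K) / ((S.form v v : ℤ) : K)

omit [DecidableEq ι] in
lemma dot_rootVec (u v : ι → ℤ) :
    (dot K) (rootVec K u) (S.corootVec K v) =
      2 * ((S.form u v : ℤ) : K) / ((S.form v v : ℤ) : K) := by
  simp only [dot_apply, rootVec, corootVec, mul_div_assoc', ← sum_div]
  congr 1
  simp only [form, Int.cast_sum, Int.cast_mul, mul_sum]
  exact sum_congr rfl fun i _ => sum_congr rfl fun j _ => by ring

lemma form_ne {v : ι → ℤ} (hv : S.IsRoot v) : ((S.form v v : ℤ) : K) ≠ 0 :=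
  Int.cast_ne_zero.2 (S.form_self_pos hv.ne_zero).ne'

lemma exists_int {v : ι → ℤ} (hv : S.IsRoot v) (u : ι → ℤ) :
    ∃ z : ℤ, z * S.form v v = 2 * S.form u v := by
  obtain ⟨D, -, -, hQ, hdvd⟩ := hv.norm
  obtain ⟨z, hz⟩ : D ∣ S.form u v := dvd_sum fun i _ => dvd_sum fun j _ => by
    rw [mul_assoc _ (S.d j)]
    exact dvd_mul_of_dvd_right (hdvd j) _
  exact ⟨z, by rw [hQ, hz]; ring⟩

lemma dot_eq_int {v : ι → ℤ} (hv : S.IsRoot v) {u : ι → ℤ} {z : ℤ}
    (hz : z * S.form v v = 2 * S.form u v) :
    (dot K) (rootVec K u) (S.corootVec K v) = (z : K) := by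
  rw [dot_rootVec, div_eq_iff (S.form_ne K hv)]
  exact_mod_cast hz.symm

/-- The roots, as an embedding. -/
def rootEmb : S.RootIdx ↪ (ι → K) :=
  ⟨fun v => rootVec K v.1, fun v w h => Subtype.ext (funext fun i => Int.cast_injective
    (congrFun h i))⟩

/-- The coroots, as an embedding. -/
def corootEmb : S.RootIdx ↪ (ι → K) :=
  ⟨fun v => S.corootVec K v.1, fun v w h => by
    have hb : ∀ u : ι → ℤ, S.form u v.1 * S.form w.1 w.1 = S.form u w.1 * S.form v.1 v.1 :=
      fun u => by
        have e := congrArg ((dot K) (rootVec K u)) h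
        rw [dot_rootVec, dot_rootVec, div_eq_div_iff (S.form_ne K v.2) (S.form_ne K w.2),
          mul_assoc, mul_assoc] at e
        exact_mod_cast mul_left_cancel₀ two_ne_zero e
    have h1 := hb v.1
    have h2 := hb w.1
    rw [mul_comm (S.form v.1 w.1)] at h1
    have h3 : S.form v.1 w.1 = S.form w.1 w.1 :=
      (mul_left_cancel₀ (S.form_self_pos v.2.ne_zero).ne' h1).symm
    have h4 : S.form w.1 v.1 = S.form v.1 v.1 := by
      rw [mul_comm] at h2
      exact mul_left_cancel₀ (S.form_self_pos w.2.ne_zero).ne' h2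
    by_contra hne
    have h5 := S.form_self_pos (sub_ne_zero.2 (Subtype.coe_ne_coe.2 hne))
    rw [form_sub_left, form_sub_right, form_sub_right] at h5
    omega⟩

lemma dot_self (v : S.RootIdx) : (dot K) (S.rootEmb K v) (S.corootEmb K v) = 2 := by
  have := S.dot_eq_int K v.2 (u := v.1) (z := 2) rfl
  simpa [rootEmb, corootEmb] using this

lemma mapsTo_root (v : S.RootIdx) :
    Set.MapsTo (preReflection (S.rootEmb K v) ((dot K).flip (S.corootEmb K v)))
      (Set.range (S.rootEmb K)) (Set.range (S.rootEmb K)) := by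
  rintro - ⟨w, rfl⟩
  obtain ⟨z, hz⟩ := S.exists_int v.2 w.1
  refine ⟨⟨w.1 - z • v.1, IsRoot.reflect S v.2 w.2 hz⟩, ?_⟩
  rw [preReflection_apply, LinearMap.flip_apply]
  show rootVec K (w.1 - z • v.1) =
    rootVec K w.1 - (dot K) (rootVec K w.1) (S.corootVec K v.1) • rootVec K v.1
  rw [S.dot_eq_int K v.2 hz]
  funext i
  simp [rootVec]

/-- The index of a simple root. -/
def simpleIdx (i : ι) : S.RootIdx := ⟨Pi.single i 1, .single i⟩

lemma rootEmb_simpleIdx (i : ι) : S.rootEmb K (S.simpleIdx i) = Pi.single i 1 := by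
  funext k
  show ((Pi.single i 1 : ι → ℤ) k : K) = _
  rcases eq_or_ne k i with rfl | hk
  · simp
  · simp [Pi.single_eq_of_ne hk]

lemma span_root : Submodule.span K (Set.range (S.rootEmb K)) = ⊤ := by
  rw [eq_top_iff, ← (Pi.basisFun K ι).span_eq]
  refine Submodule.span_le.2 ?_
  rintro - ⟨i, rfl⟩
  exact Submodule.subset_span ⟨S.simpleIdx i, by rw [rootEmb_simpleIdx, Pi.basisFun_apply]⟩

/-- The root system of a symmetrisable positive definite Cartan matrix. -/
def rootPairing : RootPairing S.RootIdx K (ι → K) (ι → K) :=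
  RootPairing.mk'' (dot K) (S.rootEmb K) (S.corootEmb K) (S.dot_self K) (S.mapsTo_root K)
    (S.span_root K)

lemma int_pairing (v w : S.RootIdx) :
    ∃ z : ℤ, (z : K) = (dot K) (S.rootEmb K v) (S.corootEmb K w) := by
  obtain ⟨z, hz⟩ := S.exists_int w.2 v.1
  exact ⟨z, (S.dot_eq_int K w.2 hz).symm⟩

instance : (S.rootPairing K).IsCrystallographic := ⟨S.int_pairing K⟩

instance : (S.rootPairing K).IsRootSystem := RootPairing.isRootSystem_mk'' (S.int_pairing K)

instance : (S.rootPairing K).IsReduced := by
  refine ⟨fun v w h => ?_⟩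
  rw [LinearIndependent.pair_iff] at h
  push Not at h
  obtain ⟨a, b, hab, hne⟩ := h
  have hab' : ∀ k, a * (v.1 k : K) + b * (w.1 k : K) = 0 := fun k => congrFun hab k
  have hb : b ≠ 0 := fun hb0 => by
    obtain ⟨k, hk⟩ := Function.ne_iff.1 v.2.ne_zero
    have := hab' k
    simp [hb0] at this
    rcases this with h0 | h0
    · exact hne h0 hb0
    · exact hk (by simpa using h0)
  have hcross : ∀ k l, v.1 k * w.1 l = v.1 l * w.1 k := fun k l => by
    have e : b * ((v.1 k : K) * (w.1 l : K) - (v.1 l : K) * (w.1 k : K)) = 0 := by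
      linear_combination (v.1 k : K) * hab' l - (v.1 l : K) * hab' k
    have := sub_eq_zero.1 ((mul_eq_zero.1 e).resolve_left hb)
    exact_mod_cast this
  rcases IsRoot.eq_or_eq_neg S v.2 w.2 hcross with e | e
  · exact Or.inl (funext fun k => by show (v.1 k : K) = (w.1 k : K); rw [e])
  · exact Or.inr (funext fun k => by show (v.1 k : K) = -(w.1 k : K); rw [e]; simp)

lemma simpleIdx_injective : Function.Injective S.simpleIdx := fun i j h => by
  by_contra hne
  have := congrFun (congrArg Subtype.val h) i
  simp [simpleIdx, Pi.single_eq_of_ne hne] at this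

lemma mem_closure_simple (v : ι → ℤ) (hv : ∀ k, 0 ≤ v k) :
    rootVec K v ∈ AddSubmonoid.closure (S.rootEmb K '' Set.range S.simpleIdx) := by
  have e : rootVec K v = ∑ i, (v i).toNat • S.rootEmb K (S.simpleIdx i) := funext fun k => by
    simp only [rootEmb_simpleIdx, Finset.sum_apply, Pi.smul_apply, nsmul_eq_mul]
    rw [sum_eq_single k (fun i _ hi => by simp [Pi.single_eq_of_ne hi.symm]) (by simp)]
    have : (((v k).toNat : ℕ) : K) = (v k : K) := by
      rw [← Int.cast_natCast, Int.toNat_of_nonneg (hv k)]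
    simp [rootVec, this]
  rw [e]
  exact sum_mem fun i _ => AddSubmonoid.nsmul_mem _
    (AddSubmonoid.subset_closure (Set.mem_image_of_mem _ (Set.mem_range_self i))) _

/-- The simple roots form a base. -/
def base : (S.rootPairing K).Base :=
  RootPairing.Base.mk' (S.rootPairing K) (Set.range S.simpleIdx)
    (by
      have h : LinearIndependent K fun i => S.rootEmb K (S.simpleIdx i) := by
        have := (Pi.basisFun K ι).linearIndependent
        convert this using 1
        funext i
        rw [rootEmb_simpleIdx, Pi.basisFun_apply]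
      exact (linearIndepOn_range_iff S.simpleIdx_injective _).2 h)
    (fun v => by
      rcases v.2.sign with h | h
      · exact Or.inl (S.mem_closure_simple K v.1 h)
      · refine Or.inr ?_
        have h1 := S.mem_closure_simple K (fun k => -v.1 k) fun k => neg_nonneg.2 (h k)
        have e : -(S.rootPairing K).root v = rootVec K fun k => -v.1 k := funext fun k => by
          show -(v.1 k : K) = _
          simp [rootVec]
        rw [e]
        exact h1)

lemma simpleIdx_mem (i : ι) : S.simpleIdx i ∈ (S.base K).support := by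
  simp [base, RootPairing.Base.mk']

/-- The simple roots are indexed by the matrix. -/
def simpleEquiv : ι ≃ (S.base K).support :=
  Equiv.ofBijective (fun i => ⟨S.simpleIdx i, S.simpleIdx_mem K i⟩)
    ⟨fun i j h => S.simpleIdx_injective (congrArg Subtype.val h), fun ⟨v, hv⟩ => by
      obtain ⟨i, rfl⟩ : v ∈ Set.range S.simpleIdx := by
        simpa [base, RootPairing.Base.mk'] using hv
      exact ⟨i, rfl⟩⟩

theorem cartanMatrix_base (i j : ι) :
    (S.base K).cartanMatrix (S.simpleEquiv K i) (S.simpleEquiv K j) = S.C i j := by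
  rw [RootPairing.Base.cartanMatrix, RootPairing.Base.cartanMatrixIn_def,
    ← Int.cast_inj (α := K), ← eq_intCast (algebraMap ℤ K), RootPairing.algebraMap_pairingIn]
  refine S.dot_eq_int K (S.simpleIdx j).2 (u := (S.simpleIdx i).1) (z := S.C i j) ?_
  simp only [simpleIdx, form_single_right, cv_single, S.gcm.diag]
  ring

/-- A connected diagram gives an irreducible root system. -/
theorem isIrreducible (hconn : (graph S.C).Connected) : (S.rootPairing K).IsIrreducible := by
  have := hconn.nonempty
  refine RootPairing.IsIrreducible.mk' _ fun q hq hq0 => ?_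
  have hstep : ∀ (x : ι → K) (j : ι), x ∈ q → (∑ i, x i * (S.C i j : K)) ≠ 0 →
      (Pi.single j 1 : ι → K) ∈ q := fun x j hx hne => by
    have h1 : (S.rootPairing K).reflection (S.simpleIdx j) x ∈ q :=
      (Module.End.mem_invtSubmodule _).1 (hq _) hx
    rw [RootPairing.reflection_apply] at h1
    have h2 : (S.rootPairing K).coroot' (S.simpleIdx j) x = ∑ i, x i * (S.C i j : K) := by
      show (dot K) x (S.corootVec K (Pi.single j 1)) = _
      simp only [dot_apply, corootVec, form_single]
      refine sum_congr rfl fun i _ => ?_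
      rw [sum_eq_single j (fun k _ hk => by simp [Pi.single_eq_of_ne hk]) (by simp)]
      have hd : (S.d j : K) ≠ 0 := Int.cast_ne_zero.2 (S.dpos j).ne'
      simp
      field_simp
      tauto
    have h3 := q.sub_mem hx h1
    rw [sub_sub_cancel, h2] at h3
    have h4 := q.smul_mem (∑ i, x i * (S.C i j : K))⁻¹ h3
    rwa [smul_smul, inv_mul_cancel₀ hne, one_smul,
      show (S.rootPairing K).root (S.simpleIdx j) = S.rootEmb K (S.simpleIdx j) from rfl,
      rootEmb_simpleIdx] at h4
  obtain ⟨x, hx, hx0⟩ := q.ne_bot_iff.1 hq0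
  obtain ⟨j₀, hj₀⟩ : ∃ j, (∑ i, x i * (S.C i j : K)) ≠ 0 := by
    by_contra hcon
    push Not at hcon
    have hdet : (S.C.map (Int.cast : ℤ → K)).det ≠ 0 := by
      rw [show S.C.map (Int.cast : ℤ → K) = (Int.castRingHom K).mapMatrix S.C from rfl,
        ← RingHom.map_det]
      exact Int.cast_ne_zero.2 S.det_ne_zero
    exact hdet (Matrix.exists_vecMul_eq_zero_iff.1 ⟨x, hx0, funext hcon⟩)
  have hall : ∀ j, (Pi.single j 1 : ι → K) ∈ q := fun j => by
    obtain ⟨p⟩ := hconn.preconnected j₀ j
    have hj : (Pi.single j₀ 1 : ι → K) ∈ q := hstep x j₀ hx hj₀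
    clear hj₀
    induction p with
    | nil => exact hj
    | @cons a b c hab _ ih =>
      refine ih (hstep _ b hj ?_)
      rw [sum_eq_single a (fun k _ hk => by simp [Pi.single_eq_of_ne hk]) (by simp)]
      simpa using (S.gcm.graph_adj.1 hab).2
  rw [eq_top_iff, ← (Pi.basisFun K ι).span_eq, Submodule.span_le]
  rintro - ⟨i, rfl⟩
  rw [Pi.basisFun_apply]
  exact hall i

end SymGCM

end FA.Dynkin
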