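import Fermat.Agent.Dynkin.FiniteType
import Mathlib.LinearAlgebra.Matrix.Cartan

/-!
# Dynkin types and one-vertex extensions

The types A–G with Mathlib's matrices, duality, and the matrix obtained from one of them by joining
a new vertex to a single old one.
-/

set_option autoImplicit false

namespace FA.Dynkin

/-- The Dynkin types. -/
inductive DynkinType
  | A (n : ℕ)
  | B (n : ℕ)
  | C (n : ℕ)
  | D (n : ℕ)
  | E6
  | E7
  | E8
  | F4
  | G2
  deriving DecidableEq

namespace DynkinType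

/-- The rank. -/
def rank : DynkinType → ℕ
  | .A n => n
  | .B n => n
  | .C n => n
  | .D n => n
  | .E6 => 6
  | .E7 => 7
  | .E8 => 8
  | .F4 => 4
  | .G2 => 2

/-- The Cartan matrix of a type. -/
def matrix : (t : DynkinType) → Matrix (Fin t.rank) (Fin t.rank) ℤ
  | .A n => CartanMatrix.A n
  | .B n => CartanMatrix.B n
  | .C n => CartanMatrix.C n
  | .D n => CartanMatrix.D n
  | .E6 => CartanMatrix.E₆
  | .E7 => CartanMatrix.E₇
  | .E8 => CartanMatrix.E₈
  | .F4 => CartanMatrix.F₄
  | .G2 => CartanMatrix.G₂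

/-- The ranges that make the list free of repetitions. -/
def Valid : DynkinType → Prop
  | .A n => 1 ≤ n
  | .B n => 2 ≤ n
  | .C n => 3 ≤ n
  | .D n => 4 ≤ n
  | _ => True

/-- The dual type. -/
def dual : DynkinType → DynkinType
  | .B n => if n = 2 then .B n else .C n
  | .C n => .B n
  | t => t

lemma valid_dual {t : DynkinType} (h : t.Valid) : t.dual.Valid := by
  cases t with
  | B n =>
    simp only [dual]
    split_ifs with hn
    · exact h
    · simp only [Valid] at h ⊢; omega
  | C n => simp only [dual, Valid] at h ⊢; omega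
  | _ => exact h

end DynkinType

open DynkinType

variable {ι κ : Type*}

/-- A matrix is, up to reindexing, the matrix of a type. -/
def Matches (t : DynkinType) (C : Matrix ι ι ℤ) : Prop :=
  ∃ σ : Fin t.rank ≃ ι, ∀ a b, C (σ a) (σ b) = t.matrix a b

lemma Matches.of_equiv {t : DynkinType} {C : Matrix ι ι ℤ} {C' : Matrix κ κ ℤ} (h : Matches t C')
    (e : κ ≃ ι) (he : ∀ a b, C (e a) (e b) = C' a b) : Matches t C := by
  obtain ⟨σ, hσ⟩ := h
  exact ⟨σ.trans e, fun a b => (he _ _).trans (hσ a b)⟩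

/-- The transpose of the matrix of a type matches the dual type. -/
theorem Matches.transpose {t : DynkinType} {C : Matrix ι ι ℤ} (h : Matches t C) :
    Matches t.dual C.transpose := by
  suffices hd : Matches t.dual t.matrix.transpose by
    obtain ⟨σ, hσ⟩ := h
    exact hd.of_equiv σ fun a b => hσ b a
  cases t with
  | A n => exact ⟨Equiv.refl _, fun a b => congrFun (congrFun (CartanMatrix.A_transpose n) a) b⟩
  | B n =>
    simp only [DynkinType.dual]
    split_ifs with hn
    · subst hn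
      show ∃ σ : Fin 2 ≃ Fin 2, ∀ a b,
        (CartanMatrix.B 2).transpose (σ a) (σ b) = CartanMatrix.B 2 a b
      exact ⟨Equiv.swap 0 1, by decide⟩
    · exact ⟨Equiv.refl _, fun a b => congrFun (congrFun (CartanMatrix.B_transpose n) a) b⟩
  | C n => exact ⟨Equiv.refl _, fun a b => congrFun (congrFun (CartanMatrix.C_transpose n) a) b⟩
  | D n => exact ⟨Equiv.refl _, fun a b => congrFun (congrFun (CartanMatrix.D_transpose n) a) b⟩
  | E6 => exact ⟨Equiv.refl _, fun a b => congrFun (congrFun CartanMatrix.E₆_transpose a) b⟩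
  | E7 => exact ⟨Equiv.refl _, fun a b => congrFun (congrFun CartanMatrix.E₇_transpose a) b⟩
  | E8 => exact ⟨Equiv.refl _, fun a b => congrFun (congrFun CartanMatrix.E₈_transpose a) b⟩
  | F4 =>
    show ∃ σ : Fin 4 ≃ Fin 4, ∀ a b, CartanMatrix.F₄.transpose (σ a) (σ b) = CartanMatrix.F₄ a b
    exact ⟨Fin.revPerm, by decide⟩
  | G2 =>
    show ∃ σ : Fin 2 ≃ Fin 2, ∀ a b, CartanMatrix.G₂.transpose (σ a) (σ b) = CartanMatrix.G₂ a b
    exact ⟨Equiv.swap 0 1, by decide⟩

/-- The matrix `T` with a new last vertex joined to the vertex `k` by the entries `-p` and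
`-q`. -/
def extMat {m : ℕ} (T : Matrix (Fin m) (Fin m) ℤ) (k p q : ℕ) :
    Matrix (Fin (m + 1)) (Fin (m + 1)) ℤ :=
  Matrix.of fun a b =>
    if ha : (a : ℕ) < m then
      if hb : (b : ℕ) < m then T ⟨a, ha⟩ ⟨b, hb⟩
      else if (a : ℕ) = k then -(q : ℤ) else 0
    else
      if (b : ℕ) < m then if (b : ℕ) = k then -(p : ℤ) else 0 else 2

lemma extMat_transpose {m : ℕ} (T : Matrix (Fin m) (Fin m) ℤ) (k p q : ℕ) :
    (extMat T k p q).transpose = extMat T.transpose k q p := by
  ext a b
  by_cases ha : (a : ℕ) < m <;> by_cases hb : (b : ℕ) < m <;> simp [extMat, ha, hb]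

/-- Reindexing the old vertices. -/
lemma extMat_reindex {m : ℕ} (T T' : Matrix (Fin m) (Fin m) ℤ) (σ : Fin m ≃ Fin m)
    (hσ : ∀ a b, T (σ a) (σ b) = T' a b) (k k' : Fin m) (hk : σ k' = k) (p q : ℕ) :
    ∃ τ : Fin (m + 1) ≃ Fin (m + 1),
      ∀ a b, extMat T k p q (τ a) (τ b) = extMat T' k' p q a b := by
  refine ⟨finSuccEquivLast.trans ((Equiv.optionCongr σ).trans finSuccEquivLast.symm),
    fun a b => ?_⟩
  subst hk
  induction a using Fin.lastCases with
  | last =>
    induction b using Fin.lastCases with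
    | last => simp [extMat]
    | cast b => simp [extMat, Fin.val_inj]
  | cast a =>
    induction b using Fin.lastCases with
    | last => simp [extMat, Fin.val_inj]
    | cast b => simp [extMat, hσ]

/-- Bound for a column sum by the diagonal and one neighbour. -/
lemma sum_le_one [Fintype ι] {M : Matrix ι ι ℤ} (h : IsGCM M) (v : ι → ℕ) {a b : ι}
    (hab : b ≠ a) : ∑ x, (v x : ℤ) * M x a ≤ 2 * v a + (v b : ℤ) * M b a := by
  classical
  rw [← Finset.add_sum_erase _ _ (Finset.mem_univ a),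
    ← Finset.add_sum_erase _ _ (Finset.mem_erase.2 ⟨hab, Finset.mem_univ b⟩), h.diag]
  have : ∑ x ∈ (Finset.univ.erase a).erase b, (v x : ℤ) * M x a ≤ 0 :=
    Finset.sum_nonpos fun x hx => mul_nonpos_of_nonneg_of_nonpos (Int.natCast_nonneg _)
      (h.nonpos _ _ (Finset.mem_erase.1 (Finset.mem_erase.1 hx).2).1)
  linarith

/-- Bound for a column sum by the diagonal and two neighbours. -/
lemma sum_le_two [Fintype ι] {M : Matrix ι ι ℤ} (h : IsGCM M) (v : ι → ℕ) {a b c : ι}
    (hab : b ≠ a) (hac : c ≠ a) (hbc : c ≠ b) :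
    ∑ x, (v x : ℤ) * M x a ≤ 2 * v a + (v b : ℤ) * M b a + (v c : ℤ) * M c a := by
  classical
  rw [← Finset.add_sum_erase _ _ (Finset.mem_univ a),
    ← Finset.add_sum_erase _ _ (Finset.mem_erase.2 ⟨hab, Finset.mem_univ b⟩),
    ← Finset.add_sum_erase _ _
      (Finset.mem_erase.2 ⟨hbc, Finset.mem_erase.2 ⟨hac, Finset.mem_univ c⟩⟩), h.diag]
  have : ∑ x ∈ ((Finset.univ.erase a).erase b).erase c, (v x : ℤ) * M x a ≤ 0 :=
    Finset.sum_nonpos fun x hx => mul_nonpos_of_nonneg_of_nonpos (Int.natCast_nonneg _)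
      (h.nonpos _ _ (Finset.mem_erase.1 (Finset.mem_erase.1 (Finset.mem_erase.1 hx).2).2).1)
  linarith

end FA.Dynkin
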